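import Mathlib

/-!
# FROB project (Frobenius density theorem, existence form): shared definition

`idealCount K n` is the number of integral ideals of norm `n` of the number field `K`, i.e. the
`n`-th coefficient of Mathlib's `NumberField.dedekindZeta K` (definitionally the same expression).
-/

set_option autoImplicit false

namespace Fermat.Agent.Frob

open NumberField

/-- Number of integral ideals of norm `n` (the coefficient of the Dedekind zeta function). -/
noncomputable def idealCount (K : Type*) [Field K] [NumberField K] (n : ℕ) : ℕ :=
  Nat.card {I : Ideal (𝓞 K) // Ideal.absNorm I = n}

theorem idealCount_def (K : Type*) [Field K] [NumberField K] (n : ℕ) :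
    idealCount K n = Nat.card {I : Ideal (𝓞 K) // Ideal.absNorm I = n} := rfl

/-- The Dedekind zeta function is the L-series of `idealCount`. -/
theorem dedekindZeta_eq_LSeries_idealCount (K : Type*) [Field K] [NumberField K] (s : ℂ) :
    NumberField.dedekindZeta K s = LSeries (fun n => (idealCount K n : ℂ)) s := rfl

end Fermat.Agent.Frob
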