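import Mathlib

/-!
# FROB-U (task 130): unramified primes in a Galois number field

For `L / ℚ` Galois, `p ∤ disc L` and `P ∣ p` a prime of `𝓞 L`:

* `inertia_eq_bot` : the inertia group of `P` is trivial;
* `card_stabilizer_eq_inertiaDeg` : `|D_P| = f(P | p)`;
* `stabilizer_eq_zpowers` : the decomposition group `D_P` is generated by any Frobenius at `P`.

Auxiliary facts are prefixed `ur_`.
-/

namespace Fermat.Agent.Frob

open NumberField
open scoped Pointwise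

variable (L : Type*) [Field L] [NumberField L] [IsGalois ℚ L]

/-- `p` prime in `ℕ` is prime in `ℤ`. -/
theorem ur_prime_int {p : ℕ} (hp : p.Prime) : Prime (p : ℤ) := Nat.prime_iff_prime_int.mp hp

omit [NumberField L] [IsGalois ℚ L] in
theorem ur_liesOver {p : ℕ} (hp : p.Prime)
    (P : Ideal (𝓞 L)) [P.IsPrime] (hP : (p : 𝓞 L) ∈ P) :
    P.LiesOver (Ideal.span {(p : ℤ)}) := by
  have h := (Ideal.liesOver_span_iff (S := 𝓞 L) (P := P) Ideal.IsPrime.ne_top' (ur_prime_int hp))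
  refine h.mpr ?_
  simpa using hP

omit [IsGalois ℚ L] in
theorem ur_isUnramifiedAt {p : ℕ} (hp : p.Prime) (hpd : ¬ (p : ℤ) ∣ NumberField.discr L)
    (P : Ideal (𝓞 L)) [P.IsPrime] (hP : (p : 𝓞 L) ∈ P) :
    Algebra.IsUnramifiedAt ℤ P := by
  have h := (NumberField.not_dvd_discr_iff_forall_mem L (𝓞 L) (ur_prime_int hp)).mp hpd P inferInstance
  exact h (by simpa using hP)

theorem ur_span_isPrime {p : ℕ} (hp : p.Prime) : (Ideal.span {(p : ℤ)}).IsPrime :=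
  (Ideal.span_singleton_prime (ur_prime_int hp).ne_zero).mpr (ur_prime_int hp)

theorem ur_span_isMaximal {p : ℕ} (hp : p.Prime) : (Ideal.span {(p : ℤ)}).IsMaximal :=
  (ur_span_isPrime hp).isMaximal (by simpa using hp.ne_zero)

omit [NumberField L] [IsGalois ℚ L] in
theorem ur_under_eq {p : ℕ} (hp : p.Prime)
    (P : Ideal (𝓞 L)) [P.IsPrime] (hP : (p : 𝓞 L) ∈ P) :
    P.under ℤ = Ideal.span {(p : ℤ)} :=
  ((ur_liesOver L hp P hP).over).symm

omit [NumberField L] [IsGalois ℚ L] in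
theorem ur_isMaximal {p : ℕ} (hp : p.Prime)
    (P : Ideal (𝓞 L)) [P.IsPrime] (hP : (p : 𝓞 L) ∈ P) : P.IsMaximal := by
  have := ur_span_isMaximal hp
  have := ur_liesOver L hp P hP
  exact Ideal.IsMaximal.of_liesOver_isMaximal P (Ideal.span {(p : ℤ)})

theorem ur_card_int_quot (p : ℕ) : Nat.card (ℤ ⧸ Ideal.span {(p : ℤ)}) = p := by
  rw [Nat.card_congr (Int.quotientSpanEquivZMod (p : ℤ)).toEquiv]
  simp

omit [NumberField L] [IsGalois ℚ L] in
theorem ur_card_under {p : ℕ} (hp : p.Prime)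
    (P : Ideal (𝓞 L)) [P.IsPrime] (hP : (p : 𝓞 L) ∈ P) :
    Nat.card (ℤ ⧸ P.under ℤ) = p := by
  rw [ur_under_eq L hp P hP, ur_card_int_quot]

omit [IsGalois ℚ L] in
/-- The residue field at `P ∣ p` has `p ^ f` elements. -/
theorem ur_card_quot_eq_pow_inertiaDeg {p : ℕ} (hp : p.Prime)
    (P : Ideal (𝓞 L)) [P.IsPrime] (hP : (p : 𝓞 L) ∈ P) :
    Nat.card (𝓞 L ⧸ P) = p ^ P.inertiaDeg ℤ := by
  have := ur_span_isMaximal hp
  have := ur_liesOver L hp P hP
  have := ur_isMaximal L hp P hP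
  have h := Ideal.cardQuot_pow_inertiaDeg (Ideal.span {(p : ℤ)}) P
  rw [Submodule.cardQuot_apply, Submodule.cardQuot_apply, ur_card_int_quot] at h
  exact h.symm

omit [IsGalois ℚ L] in
theorem ur_ramificationIdx_eq_one {p : ℕ} (hp : p.Prime) (hpd : ¬ (p : ℤ) ∣ NumberField.discr L)
    (P : Ideal (𝓞 L)) [P.IsPrime] (hP : (p : 𝓞 L) ∈ P) :
    P.ramificationIdx ℤ = 1 := by
  have := ur_isUnramifiedAt L hp hpd P hP
  exact Ideal.ramificationIdx_eq_one_of_isUnramifiedAt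

theorem ur_card_inertia_eq_one {p : ℕ} (hp : p.Prime) (hpd : ¬ (p : ℤ) ∣ NumberField.discr L)
    (P : Ideal (𝓞 L)) [P.IsPrime] (hP : (p : 𝓞 L) ∈ P) :
    Nat.card (P.inertia (L ≃ₐ[ℚ] L)) = 1 := by
  have := ur_span_isPrime hp
  have := ur_liesOver L hp P hP
  rw [Ideal.card_inertia_eq_ramificationIdxIn (Ideal.span {(p : ℤ)}) P,
    Ideal.ramificationIdxIn_eq_ramificationIdx (Ideal.span {(p : ℤ)}) P (L ≃ₐ[ℚ] L)]
  exact ur_ramificationIdx_eq_one L hp hpd P hP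

/-- If `p ∤ disc L` then the inertia group at any `P ∣ p` is trivial. -/
theorem inertia_eq_bot {p : ℕ} (hp : p.Prime) (hpd : ¬ (p : ℤ) ∣ NumberField.discr L)
    (P : Ideal (𝓞 L)) [P.IsPrime] (hP : (p : 𝓞 L) ∈ P) : P.inertia (L ≃ₐ[ℚ] L) = ⊥ :=
  Subgroup.card_eq_one.mp (ur_card_inertia_eq_one L hp hpd P hP)

/-- If `p ∤ disc L` then the decomposition group at `P ∣ p` has order `f(P | p)`. -/
theorem card_stabilizer_eq_inertiaDeg {p : ℕ} (hp : p.Prime)
    (hpd : ¬ (p : ℤ) ∣ NumberField.discr L)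
    (P : Ideal (𝓞 L)) [P.IsPrime] (hP : (p : 𝓞 L) ∈ P) :
    Nat.card (MulAction.stabilizer (L ≃ₐ[ℚ] L) P) = P.inertiaDeg ℤ := by
  have := ur_span_isPrime hp
  have := ur_liesOver L hp P hP
  rw [Ideal.card_stabilizer_eq_card_inertia_mul_finrank (Ideal.span {(p : ℤ)}) P,
    ur_card_inertia_eq_one L hp hpd P hP, one_mul]

/-- If `p ∤ disc L` then the residue field at `P ∣ p` has `p ^ |D_P|` elements. -/
theorem ur_card_quot_eq_pow_card_stabilizer {p : ℕ} (hp : p.Prime)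
    (hpd : ¬ (p : ℤ) ∣ NumberField.discr L)
    (P : Ideal (𝓞 L)) [P.IsPrime] (hP : (p : 𝓞 L) ∈ P) :
    Nat.card (𝓞 L ⧸ P) = p ^ Nat.card (MulAction.stabilizer (L ≃ₐ[ℚ] L) P) := by
  rw [card_stabilizer_eq_inertiaDeg L hp hpd P hP, ur_card_quot_eq_pow_inertiaDeg L hp P hP]

/-- In a finite field all of whose elements satisfy `y ^ m = y` (`m > 1`), there are at most `m`
elements. -/
theorem ur_card_le_of_pow_eq {k : Type*} [Field k] [Finite k] {m : ℕ} (hm : 1 < m)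
    (h : ∀ y : k, y ^ m = y) : Nat.card k ≤ m := by
  classical
  have := Fintype.ofFinite k
  rw [Nat.card_eq_fintype_card, ← Finset.card_univ]
  have h1 := Polynomial.card_le_degree_of_subset_roots (R := k)
    (p := (Polynomial.X ^ m - Polynomial.X : Polynomial k)) (Z := Finset.univ) (fun x _ ↦ by
      rw [Polynomial.mem_roots (FiniteField.X_pow_card_sub_X_ne_zero k hm)]
      simp [h x])
  rwa [FiniteField.X_pow_card_sub_X_natDegree_eq k hm] at h1

omit [IsGalois ℚ L] in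
/-- Iterating a Frobenius: `σ ^ j • x ≡ x ^ (p ^ j) mod P`. -/
theorem ur_frob_pow_mk {p : ℕ} (hp : p.Prime)
    (P : Ideal (𝓞 L)) [P.IsPrime] (hP : (p : 𝓞 L) ∈ P) (σ : L ≃ₐ[ℚ] L)
    (hσ : IsArithFrobAt ℤ σ P) (j : ℕ) (x : 𝓞 L) :
    Ideal.Quotient.mk P ((σ ^ j) • x) = (Ideal.Quotient.mk P x) ^ (p ^ j) := by
  induction j generalizing x with
  | zero => simp
  | succ j ih =>
    rw [pow_succ', mul_smul]
    have h := hσ.mk_apply ((σ ^ j) • x)
    rw [ur_card_under L hp P hP] at h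
    rw [pow_succ, pow_mul, ← ih]
    exact h

/-- The order of a Frobenius at an unramified `P` is at least `|D_P|`. -/
theorem ur_card_stabilizer_le_orderOf {p : ℕ} (hp : p.Prime)
    (hpd : ¬ (p : ℤ) ∣ NumberField.discr L)
    (P : Ideal (𝓞 L)) [P.IsPrime] (hP : (p : 𝓞 L) ∈ P) (σ : L ≃ₐ[ℚ] L)
    (hσ : IsArithFrobAt ℤ σ P) :
    Nat.card (MulAction.stabilizer (L ≃ₐ[ℚ] L) P) ≤ orderOf σ := by
  have hmax := ur_isMaximal L hp P hP
  let _ : Field (𝓞 L ⧸ P) := Ideal.Quotient.field P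
  have hfin : Finite (𝓞 L ⧸ P) := by
    apply Nat.finite_of_card_ne_zero
    rw [ur_card_quot_eq_pow_inertiaDeg L hp P hP]
    exact pow_ne_zero _ hp.ne_zero
  have hn : 0 < orderOf σ := orderOf_pos σ
  have hall : ∀ y : 𝓞 L ⧸ P, y ^ (p ^ orderOf σ) = y := by
    intro y
    obtain ⟨x, rfl⟩ := Ideal.Quotient.mk_surjective y
    rw [← ur_frob_pow_mk L hp P hP σ hσ, pow_orderOf_eq_one, one_smul]
  have h1 := ur_card_le_of_pow_eq (k := 𝓞 L ⧸ P) (Nat.one_lt_pow hn.ne' hp.one_lt) hall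
  rw [ur_card_quot_eq_pow_card_stabilizer L hp hpd P hP] at h1
  exact (Nat.pow_le_pow_iff_right hp.one_lt).mp h1

/-- If `p ∤ disc L` then the decomposition group at `P ∣ p` is generated by any Frobenius
element at `P`. -/
theorem stabilizer_eq_zpowers {p : ℕ} (hp : p.Prime) (hpd : ¬ (p : ℤ) ∣ NumberField.discr L)
    (P : Ideal (𝓞 L)) [P.IsPrime] (hP : (p : 𝓞 L) ∈ P) (σ : L ≃ₐ[ℚ] L)
    (hσ : IsArithFrobAt ℤ σ P) : MulAction.stabilizer (L ≃ₐ[ℚ] L) P = Subgroup.zpowers σ := by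
  symm
  apply Subgroup.eq_of_le_of_card_ge
  · rw [Subgroup.zpowers_le]
    exact hσ.mem_stabilizer
  · rw [Nat.card_zpowers]
    exact ur_card_stabilizer_le_orderOf L hp hpd P hP σ hσ

/-- The order of a Frobenius at an unramified `P` is the residue degree. -/
theorem ur_orderOf_frob_eq_inertiaDeg {p : ℕ} (hp : p.Prime)
    (hpd : ¬ (p : ℤ) ∣ NumberField.discr L)
    (P : Ideal (𝓞 L)) [P.IsPrime] (hP : (p : 𝓞 L) ∈ P) (σ : L ≃ₐ[ℚ] L)
    (hσ : IsArithFrobAt ℤ σ P) : orderOf σ = P.inertiaDeg ℤ := by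
  rw [← card_stabilizer_eq_inertiaDeg L hp hpd P hP, stabilizer_eq_zpowers L hp hpd P hP σ hσ,
    Nat.card_zpowers]

end Fermat.Agent.Frob
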