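import Mathlib
import Fermat.Agent.Frob.Defs
import Fermat.Agent.Frob.Unram

/-!
# FROB-F2: counting degree-one primes of a fixed field

For a Galois number field `L/ℚ` with group `G`, a subgroup `H ≤ G`, a prime `p` at which all
inertia groups are trivial and a prime `P` of `𝓞 L` above `p`:

`|H| * #{ideals of 𝓞 (L^H) of norm p} = #{x ∈ G | Stab (x • P) ≤ H}`.
-/

set_option autoImplicit false

namespace Fermat.Agent.Frob

open NumberField

open scoped Pointwise

variable (L : Type*) [Field L] [NumberField L] [IsGalois ℚ L]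

theorem fc_isGaloisGroup_field (H : Subgroup (L ≃ₐ[ℚ] L)) :
    IsGaloisGroup H (IntermediateField.fixedField H) L :=
  IsGaloisGroup.subgroup (L ≃ₐ[ℚ] L) ℚ L H

theorem fc_isGaloisGroup (H : Subgroup (L ≃ₐ[ℚ] L)) :
    IsGaloisGroup H (𝓞 (IntermediateField.fixedField H)) (𝓞 L) :=
  haveI := fc_isGaloisGroup_field L H
  IsGaloisGroup.of_isFractionRing H (𝓞 (IntermediateField.fixedField H)) (𝓞 L)
    (IntermediateField.fixedField H) L

/-- `H` fixes the image of the ring of integers of its fixed field. -/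
theorem fc_smul_algebraMap (H : Subgroup (L ≃ₐ[ℚ] L)) (h : H)
    (a : 𝓞 (IntermediateField.fixedField H)) :
    (h : L ≃ₐ[ℚ] L) • (algebraMap (𝓞 (IntermediateField.fixedField H)) (𝓞 L) a) =
      algebraMap (𝓞 (IntermediateField.fixedField H)) (𝓞 L) a := by
  have := fc_isGaloisGroup L H
  have := (fc_isGaloisGroup L H).commutes
  exact smul_algebraMap h a

/-- Translating a prime by an element of `H` does not change its contraction to `𝓞 (L^H)`. -/
theorem fc_under_smul (H : Subgroup (L ≃ₐ[ℚ] L)) (h : H) (Q : Ideal (𝓞 L)) :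
    ((h : L ≃ₐ[ℚ] L) • Q).under (𝓞 (IntermediateField.fixedField H)) =
      Q.under (𝓞 (IntermediateField.fixedField H)) := by
  ext a
  simp only [Ideal.under_def, Ideal.mem_comap]
  rw [Ideal.mem_pointwise_smul_iff_inv_smul_mem]
  have h1 := fc_smul_algebraMap L H h⁻¹ a
  rw [Subgroup.coe_inv] at h1
  rw [h1]

variable {L}

theorem fc_isPrime_span {p : ℕ} (hp : p.Prime) : (Ideal.span {(p : ℤ)}).IsPrime := by
  rw [Ideal.span_singleton_prime (by exact_mod_cast hp.ne_zero)]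
  exact Nat.prime_iff_prime_int.mp hp

theorem fc_isMaximal_span {p : ℕ} (hp : p.Prime) : (Ideal.span {(p : ℤ)}).IsMaximal := by
  have h := fc_isPrime_span hp
  refine h.isMaximal ?_
  rw [Ne, Ideal.span_singleton_eq_bot]
  exact_mod_cast hp.ne_zero

omit [NumberField L] [IsGalois ℚ L] in
theorem fc_liesOver_span {p : ℕ} (hp : p.Prime) (Q : Ideal (𝓞 L)) [hQ : Q.IsPrime]
    (hpQ : (p : 𝓞 L) ∈ Q) : Q.LiesOver (Ideal.span {(p : ℤ)}) := by
  refine ⟨(fc_isMaximal_span hp).eq_of_le ?_ ?_⟩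
  · intro h
    have h1 : (1 : ℤ) ∈ Q.under ℤ := by rw [h]; trivial
    rw [Ideal.under_def, Ideal.mem_comap, map_one] at h1
    exact hQ.ne_top ((Ideal.eq_top_iff_one Q).mpr h1)
  · rw [Ideal.span_singleton_le_iff_mem, Ideal.under_def, Ideal.mem_comap]
    simpa using hpQ

omit [IsGalois ℚ L] in
theorem fc_natCast_mem_smul {p : ℕ} (x : L ≃ₐ[ℚ] L) (P : Ideal (𝓞 L)) (hP : (p : 𝓞 L) ∈ P) :
    (p : 𝓞 L) ∈ x • P := by
  rw [Ideal.mem_pointwise_smul_iff_inv_smul_mem]
  have h : x⁻¹ • (p : 𝓞 L) = p := map_natCast (MulSemiringAction.toRingHom _ (𝓞 L) x⁻¹) p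
  rwa [h]

/-- (A) With trivial inertia, the decomposition group has order the residue degree. -/
theorem fc_card_stabilizer {p : ℕ} (hp : p.Prime) (Q : Ideal (𝓞 L)) [Q.IsPrime]
    (hpQ : (p : 𝓞 L) ∈ Q) (hQ : Q.inertia (L ≃ₐ[ℚ] L) = ⊥) :
    Nat.card (MulAction.stabilizer (L ≃ₐ[ℚ] L) Q) = Q.inertiaDeg ℤ := by
  have := fc_isPrime_span hp
  have := fc_liesOver_span hp Q hpQ
  have h := Ideal.card_stabilizer_eq_card_inertia_mul_finrank (G := L ≃ₐ[ℚ] L)
    (Ideal.span {(p : ℤ)}) Q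
  rw [hQ, Subgroup.card_bot, one_mul] at h
  exact h

/-- (B) The same for the subgroup `H` and the fixed field. -/
theorem fc_card_stabilizer_sub (H : Subgroup (L ≃ₐ[ℚ] L)) (Q : Ideal (𝓞 L)) [Q.IsPrime]
    (hQ : Q.inertia (L ≃ₐ[ℚ] L) = ⊥) :
    Nat.card (MulAction.stabilizer H Q) =
      Q.inertiaDeg (𝓞 (IntermediateField.fixedField H)) := by
  have := fc_isGaloisGroup L H
  have h := Ideal.card_stabilizer_eq_card_inertia_mul_finrank (G := H)
    (Q.under (𝓞 (IntermediateField.fixedField H))) Q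
  have h2 : Q.inertia H = ⊥ := by
    rw [eq_bot_iff]
    intro σ hσ
    have h3 : (σ : L ≃ₐ[ℚ] L) ∈ Q.inertia (L ≃ₐ[ℚ] L) := AddSubgroup.coe_mem_inertia.mpr hσ
    rw [hQ, Subgroup.mem_bot] at h3
    exact Subgroup.mem_bot.mpr (Subtype.ext h3)
  rw [h2, Subgroup.card_bot, one_mul] at h
  exact h

omit [IsGalois ℚ L] in
/-- (C) The decomposition group in `H` is the intersection with `H`. -/
theorem fc_card_stabilizer_sub_eq (H : Subgroup (L ≃ₐ[ℚ] L)) (Q : Ideal (𝓞 L)) :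
    Nat.card (MulAction.stabilizer H Q) =
      Nat.card (MulAction.stabilizer (L ≃ₐ[ℚ] L) Q ⊓ H : Subgroup (L ≃ₐ[ℚ] L)) := by
  have h1 : MulAction.stabilizer H Q =
      (MulAction.stabilizer (L ≃ₐ[ℚ] L) Q ⊓ H).subgroupOf H := by
    ext σ
    rw [Subgroup.mem_subgroupOf, Subgroup.mem_inf, MulAction.mem_stabilizer_iff,
      MulAction.mem_stabilizer_iff]
    exact ⟨fun h => ⟨h, σ.2⟩, fun h => h.1⟩
  rw [h1]
  exact Nat.card_congr (Subgroup.subgroupOfEquivOfLe inf_le_right).toEquiv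

/-- (E) The contraction of `Q` to the fixed field of `H` has residue degree one iff the
decomposition group of `Q` is contained in `H`. -/
theorem fc_inertiaDeg_under_eq_one_iff (H : Subgroup (L ≃ₐ[ℚ] L)) {p : ℕ} (hp : p.Prime)
    (Q : Ideal (𝓞 L)) [Q.IsPrime] (hpQ : (p : 𝓞 L) ∈ Q)
    (hQ : Q.inertia (L ≃ₐ[ℚ] L) = ⊥) :
    (Q.under (𝓞 (IntermediateField.fixedField H))).inertiaDeg ℤ = 1 ↔
      MulAction.stabilizer (L ≃ₐ[ℚ] L) Q ≤ H := by
  have hA := fc_card_stabilizer hp Q hpQ hQ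
  have hB := fc_card_stabilizer_sub H Q hQ
  have hC := fc_card_stabilizer_sub_eq H Q
  have hD : Q.inertiaDeg ℤ = (Q.under (𝓞 (IntermediateField.fixedField H))).inertiaDeg ℤ *
      Q.inertiaDeg (𝓞 (IntermediateField.fixedField H)) :=
    Ideal.inertiaDeg_tower (R := ℤ) (Q.under (𝓞 (IntermediateField.fixedField H))) Q
  have hpos : 0 < Nat.card (MulAction.stabilizer (L ≃ₐ[ℚ] L) Q) := Nat.card_pos
  have key : (Q.under (𝓞 (IntermediateField.fixedField H))).inertiaDeg ℤ *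
      Nat.card (MulAction.stabilizer (L ≃ₐ[ℚ] L) Q ⊓ H : Subgroup (L ≃ₐ[ℚ] L)) =
      Nat.card (MulAction.stabilizer (L ≃ₐ[ℚ] L) Q) := by
    rw [hA, hD, ← hB, hC]
  constructor
  · intro h1
    rw [h1, one_mul] at key
    have h2 : MulAction.stabilizer (L ≃ₐ[ℚ] L) Q ⊓ H = MulAction.stabilizer (L ≃ₐ[ℚ] L) Q :=
      Subgroup.eq_of_le_of_card_ge inf_le_left key.ge
    exact inf_eq_left.mp h2
  · intro hle
    rw [inf_eq_left.mpr hle] at key
    exact Nat.eq_of_mul_eq_mul_right hpos (by rw [key, one_mul])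

omit [IsGalois ℚ L] in
/-- (F) The norm of the contraction. -/
theorem fc_absNorm_under (H : Subgroup (L ≃ₐ[ℚ] L)) {p : ℕ} (hp : p.Prime)
    (Q : Ideal (𝓞 L)) [Q.IsPrime] (hpQ : (p : 𝓞 L) ∈ Q) :
    Ideal.absNorm (Q.under (𝓞 (IntermediateField.fixedField H))) =
      p ^ (Q.under (𝓞 (IntermediateField.fixedField H))).inertiaDeg ℤ := by
  have := fc_isMaximal_span hp
  have := fc_liesOver_span hp Q hpQ
  have : (Q.under (𝓞 (IntermediateField.fixedField H))).LiesOver (Ideal.span {(p : ℤ)}) :=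
    Ideal.LiesOver.tower_bot Q (Q.under (𝓞 (IntermediateField.fixedField H)))
      (Ideal.span {(p : ℤ)})
  have hne : Q.under (𝓞 (IntermediateField.fixedField H)) ≠ ⊥ := by
    intro h0
    have h1 : (p : 𝓞 (IntermediateField.fixedField H)) ∈
        Q.under (𝓞 (IntermediateField.fixedField H)) := by
      rw [Ideal.under_def, Ideal.mem_comap, map_natCast]
      exact hpQ
    rw [h0, Ideal.mem_bot] at h1
    exact hp.ne_zero (by exact_mod_cast h1)
  have : (Q.under (𝓞 (IntermediateField.fixedField H))).IsMaximal :=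
    Ideal.IsPrime.isMaximal inferInstance hne
  have h := Ideal.absNorm_eq_pow_inertiaDeg (Q.under (𝓞 (IntermediateField.fixedField H)))
    (Nat.prime_iff_prime_int.mp hp)
  rw [Ideal.inertiaDeg'_eq_inertiaDeg] at h
  simpa using h

/-- (G) The contraction of `Q` has norm `p` iff the decomposition group of `Q` lies in `H`. -/
theorem fc_absNorm_under_eq_iff (H : Subgroup (L ≃ₐ[ℚ] L)) {p : ℕ} (hp : p.Prime)
    (Q : Ideal (𝓞 L)) [Q.IsPrime] (hpQ : (p : 𝓞 L) ∈ Q)
    (hQ : Q.inertia (L ≃ₐ[ℚ] L) = ⊥) :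
    Ideal.absNorm (Q.under (𝓞 (IntermediateField.fixedField H))) = p ↔
      MulAction.stabilizer (L ≃ₐ[ℚ] L) Q ≤ H := by
  rw [fc_absNorm_under H hp Q hpQ, Nat.pow_eq_self_iff hp.one_lt,
    fc_inertiaDeg_under_eq_one_iff H hp Q hpQ hQ]

/-- **FROB-F2**, with the triviality of inertia above `p` as a hypothesis. -/
theorem card_mul_idealCount_fixedField_of_inertia (H : Subgroup (L ≃ₐ[ℚ] L)) {p : ℕ}
    (hp : p.Prime)
    (hin : ∀ Q : Ideal (𝓞 L), Q.IsPrime → (p : 𝓞 L) ∈ Q → Q.inertia (L ≃ₐ[ℚ] L) = ⊥)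
    (P : Ideal (𝓞 L)) [P.IsPrime] (hP : (p : 𝓞 L) ∈ P) :
    Nat.card H * idealCount (IntermediateField.fixedField H) p =
      Nat.card {x : L ≃ₐ[ℚ] L // MulAction.stabilizer (L ≃ₐ[ℚ] L) (x • P) ≤ H} := by
  have hmem : ∀ x : L ≃ₐ[ℚ] L, (p : 𝓞 L) ∈ x • P := fun x => fc_natCast_mem_smul x P hP
  have hnorm : ∀ x : L ≃ₐ[ℚ] L,
      Ideal.absNorm ((x • P).under (𝓞 (IntermediateField.fixedField H))) = p ↔
        MulAction.stabilizer (L ≃ₐ[ℚ] L) (x • P) ≤ H := fun x =>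
    fc_absNorm_under_eq_iff H hp (x • P) (hmem x) (hin _ inferInstance (hmem x))
  -- surjectivity of `x ↦ (x • P) ∩ 𝓞 (L^H)`
  have hsurj : ∀ y : {I : Ideal (𝓞 (IntermediateField.fixedField H)) // Ideal.absNorm I = p},
      ∃ x : {x : L ≃ₐ[ℚ] L // MulAction.stabilizer (L ≃ₐ[ℚ] L) (x • P) ≤ H},
        ((x : L ≃ₐ[ℚ] L) • P).under (𝓞 (IntermediateField.fixedField H)) = y.1 := by
    rintro ⟨𝔮, h𝔮⟩
    have hprime : 𝔮.IsPrime := Ideal.isPrime_of_irreducible_absNorm (by rw [h𝔮]; exact hp)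
    have hp𝔮 : (p : 𝓞 (IntermediateField.fixedField H)) ∈ 𝔮 := by
      have h := Ideal.absNorm_mem 𝔮
      rwa [h𝔮] at h
    obtain ⟨Q, -, hQprime, hQ⟩ := Ideal.exists_ideal_over_prime_of_isIntegral 𝔮
      (⊥ : Ideal (𝓞 L)) (by
        rw [Ideal.comap_bot_of_injective _ (FaithfulSMul.algebraMap_injective _ _)]
        exact bot_le)
    have hpQ : (p : 𝓞 L) ∈ Q := by
      have h : (p : 𝓞 (IntermediateField.fixedField H)) ∈
          Ideal.comap (algebraMap (𝓞 (IntermediateField.fixedField H)) (𝓞 L)) Q := by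
        rw [hQ]
        exact hp𝔮
      rwa [Ideal.mem_comap, map_natCast] at h
    have := fc_liesOver_span hp P hP
    have := fc_liesOver_span hp Q hpQ
    obtain ⟨x, hx⟩ := Ideal.exists_smul_eq_of_isGaloisGroup (Ideal.span {(p : ℤ)}) P Q
      (L ≃ₐ[ℚ] L)
    have hxu : (x • P).under (𝓞 (IntermediateField.fixedField H)) = 𝔮 := by
      rw [hx, Ideal.under_def, hQ]
    exact ⟨⟨x, (hnorm x).mp (by rw [hxu, h𝔮])⟩, hxu⟩
  choose s hs using hsurj
  have hstab : ∀ (h : H)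
      (x : {x : L ≃ₐ[ℚ] L // MulAction.stabilizer (L ≃ₐ[ℚ] L) (x • P) ≤ H}),
      MulAction.stabilizer (L ≃ₐ[ℚ] L) (((h : L ≃ₐ[ℚ] L) * x.1) • P) ≤ H := by
    intro h x
    refine (hnorm _).mp ?_
    rw [mul_smul, fc_under_smul L H h]
    exact (hnorm _).mpr x.2
  have hψ : Function.Bijective
      (fun hy : H × {I : Ideal (𝓞 (IntermediateField.fixedField H)) // Ideal.absNorm I = p} =>
        (⟨(hy.1 : L ≃ₐ[ℚ] L) * (s hy.2).1, hstab hy.1 (s hy.2)⟩ :
          {x : L ≃ₐ[ℚ] L // MulAction.stabilizer (L ≃ₐ[ℚ] L) (x • P) ≤ H})) := by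
    constructor
    · rintro ⟨h, y⟩ ⟨h', y'⟩ heq
      have heq' : (h : L ≃ₐ[ℚ] L) * (s y).1 = (h' : L ≃ₐ[ℚ] L) * (s y').1 :=
        congrArg Subtype.val heq
      have h1 : (((h : L ≃ₐ[ℚ] L) * (s y).1) • P).under (𝓞 (IntermediateField.fixedField H)) =
          (((h' : L ≃ₐ[ℚ] L) * (s y').1) • P).under (𝓞 (IntermediateField.fixedField H)) := by
        rw [heq']
      rw [mul_smul, mul_smul, fc_under_smul L H h, fc_under_smul L H h', hs, hs] at h1
      have hy : y = y' := Subtype.ext h1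
      subst hy
      have hh : (h : L ≃ₐ[ℚ] L) = h' := mul_right_cancel heq'
      rw [Subtype.ext hh]
    · intro x
      have hy : Ideal.absNorm ((x.1 • P).under (𝓞 (IntermediateField.fixedField H))) = p :=
        (hnorm x.1).mpr x.2
      have hsy := hs ⟨_, hy⟩
      refine ⟨(⟨x.1 * ((s ⟨_, hy⟩).1)⁻¹, ?_⟩, ⟨_, hy⟩), ?_⟩
      · generalize s ⟨_, hy⟩ = x' at hsy ⊢
        have hsy' : (x'.1 • P).under (𝓞 (IntermediateField.fixedField H)) =
            (x.1 • P).under (𝓞 (IntermediateField.fixedField H)) := hsy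
        have := fc_isGaloisGroup L H
        have := (fc_isGaloisGroup L H).commutes
        obtain ⟨g, hg⟩ := Algebra.IsInvariant.exists_smul_of_under_eq
          (𝓞 (IntermediateField.fixedField H)) (𝓞 L) H (x'.1 • P) (x.1 • P) hsy'
        have hg' : x.1 • P = (g : L ≃ₐ[ℚ] L) • (x'.1 • P) := hg
        have hmemH : ((g : L ≃ₐ[ℚ] L))⁻¹ * x.1 * (x'.1)⁻¹ ∈ H := by
          apply x'.2
          rw [MulAction.mem_stabilizer_iff, mul_smul, inv_smul_smul, mul_smul, hg',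
            inv_smul_smul]
        have h2 := H.mul_mem g.2 hmemH
        rwa [mul_assoc, mul_inv_cancel_left] at h2
      · apply Subtype.ext
        show x.1 * ((s ⟨_, hy⟩).1)⁻¹ * (s ⟨_, hy⟩).1 = x.1
        rw [inv_mul_cancel_right]
  rw [idealCount_def, ← Nat.card_prod]
  exact Nat.card_congr (Equiv.ofBijective _ hψ)

variable (L) in
/-- **FROB-F2.** For a Galois number field `L/ℚ`, a subgroup `H` of the Galois group, a prime
`p` not dividing the discriminant and a prime `P` of `𝓞 L` above `p`: `|H|` times the number of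
ideals of norm `p` of the fixed field of `H` is the number of `x` such that the decomposition
group of `x • P` is contained in `H`. -/
theorem card_mul_idealCount_fixedField (H : Subgroup (L ≃ₐ[ℚ] L)) {p : ℕ} (hp : p.Prime)
    (hpd : ¬ (p : ℤ) ∣ NumberField.discr L) (P : Ideal (𝓞 L)) [P.IsPrime] (hP : (p : 𝓞 L) ∈ P) :
    Nat.card H * idealCount (IntermediateField.fixedField H) p =
      Nat.card {x : L ≃ₐ[ℚ] L // MulAction.stabilizer (L ≃ₐ[ℚ] L) (x • P) ≤ H} :=
  card_mul_idealCount_fixedField_of_inertia H hp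
    (fun Q hQ hpQ => haveI := hQ; inertia_eq_bot L hp hpd Q hpQ) P hP

end Fermat.Agent.Frob
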