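/-
helper42 — FROB-F3 (task 133): Moebius inversion over the subgroups of a finite cyclic group.
-/
import Mathlib

set_option autoImplicit false

namespace Fermat.Agent.Frob

open ArithmeticFunction

/-- For `d ∣ orderOf g`, an element of `zpowers g` lies in `zpowers (g ^ d)` iff it is killed by
`orderOf g / d`. -/
theorem mb_mem_zpowers_pow_iff {G : Type*} [Group G] (g : G) (hn : 0 < orderOf g) {d : ℕ}
    (hd : d ∣ orderOf g) {h : G} (hh : h ∈ Subgroup.zpowers g) :
    h ∈ Subgroup.zpowers (g ^ d) ↔ h ^ (orderOf g / d) = 1 := by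
  have hfin : IsOfFinOrder g := orderOf_pos_iff.mp hn
  constructor
  · intro hmem
    obtain ⟨k, rfl⟩ := Subgroup.mem_zpowers_iff.mp hmem
    rw [← zpow_natCast, ← zpow_mul, mul_comm, zpow_mul, zpow_natCast, ← pow_mul,
      Nat.mul_div_cancel' hd, pow_orderOf_eq_one, one_zpow]
  · intro hpow
    obtain ⟨k, hk'⟩ := hfin.mem_powers_iff_mem_zpowers.mpr hh
    have hk'' : g ^ k = h := hk'
    subst hk''
    have hk : orderOf g ∣ k * (orderOf g / d) := by
      apply orderOf_dvd_of_pow_eq_one
      rw [pow_mul]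
      exact hpow
    have hpos : 0 < orderOf g / d := Nat.div_pos (Nat.le_of_dvd hn hd) (Nat.pos_of_dvd_of_pos hd hn)
    have hdk : d ∣ k := by
      apply Nat.dvd_of_mul_dvd_mul_right hpos
      rwa [Nat.mul_div_cancel' hd]
    obtain ⟨j, rfl⟩ := hdk
    rw [pow_mul]
    exact Subgroup.pow_mem _ (Subgroup.mem_zpowers _) j

/-- For `d ∣ orderOf g`: a subgroup lies in `zpowers (g ^ d)` iff it lies in `zpowers g` and
`d` divides the index `orderOf g / |H|`. -/
theorem mb_le_zpowers_pow_iff {G : Type*} [Group G] [Finite G] (g : G) {d : ℕ}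
    (hd : d ∣ orderOf g) (H : Subgroup G) :
    H ≤ Subgroup.zpowers (g ^ d) ↔ H ≤ Subgroup.zpowers g ∧ d ∣ orderOf g / Nat.card H := by
  have hn : 0 < orderOf g := orderOf_pos g
  have hd0 : d ≠ 0 := fun h => by rw [h, zero_dvd_iff] at hd; exact hn.ne' hd
  have hHpos : 0 < Nat.card H := Nat.card_pos
  constructor
  · intro hle
    have hle' : H ≤ Subgroup.zpowers g :=
      hle.trans (Subgroup.zpowers_le.mpr (Subgroup.pow_mem _ (Subgroup.mem_zpowers g) d))
    refine ⟨hle', ?_⟩
    have h1 : Nat.card H ∣ Nat.card (Subgroup.zpowers (g ^ d)) := Subgroup.card_dvd_of_le hle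
    rw [Nat.card_zpowers, orderOf_pow_of_dvd hd0 hd] at h1
    obtain ⟨c, hc⟩ := h1
    have hn' : orderOf g = d * (Nat.card H * c) := by rw [← hc, Nat.mul_div_cancel' hd]
    refine ⟨c, ?_⟩
    rw [hn', show d * (Nat.card H * c) = Nat.card H * (d * c) by ring,
      Nat.mul_div_cancel_left _ hHpos]
  · rintro ⟨hle, hdvd⟩ h hh
    have hcard : Nat.card H ∣ orderOf g := by
      have := Subgroup.card_dvd_of_le hle
      rwa [Nat.card_zpowers] at this
    rw [mb_mem_zpowers_pow_iff g hn hd (hle hh)]
    have h1 : h ^ Nat.card H = 1 := by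
      have := pow_card_eq_one' (G := H) (x := ⟨h, hh⟩)
      exact congrArg Subtype.val this
    obtain ⟨c, hc⟩ := hdvd
    have hn' : orderOf g = Nat.card H * (d * c) := by rw [← hc, Nat.mul_div_cancel' hcard]
    have h2 : orderOf g / d = Nat.card H * c := by
      rw [hn', show Nat.card H * (d * c) = d * (Nat.card H * c) by ring,
        Nat.mul_div_cancel_left _ (Nat.pos_of_ne_zero hd0)]
    rw [h2, pow_mul, h1, one_pow]

/-- The inner sum of the Moebius inversion, for one subgroup. -/
theorem mb_inner {G : Type*} [Group G] [Finite G] (g : G) (H : Subgroup G) [Decidable (H = Subgroup.zpowers g)]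
    [∀ d : ℕ, Decidable (H ≤ Subgroup.zpowers (g ^ d))] :
    ∑ d ∈ (orderOf g).divisors,
        (moebius d : ℤ) * (if H ≤ Subgroup.zpowers (g ^ d) then (1 : ℤ) else 0) =
      if H = Subgroup.zpowers g then 1 else 0 := by
  classical
  have hn : 0 < orderOf g := orderOf_pos g
  by_cases hle : H ≤ Subgroup.zpowers g
  · have hcard : Nat.card H ∣ orderOf g := by
      have := Subgroup.card_dvd_of_le hle
      rwa [Nat.card_zpowers] at this
    have hm_dvd : orderOf g / Nat.card H ∣ orderOf g := Nat.div_dvd_of_dvd hcard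
    have hm_pos : 0 < orderOf g / Nat.card H :=
      Nat.div_pos (Nat.le_of_dvd hn hcard) Nat.card_pos
    have h1 : ∀ d ∈ (orderOf g).divisors,
        (moebius d : ℤ) * (if H ≤ Subgroup.zpowers (g ^ d) then (1 : ℤ) else 0) =
          if d ∣ orderOf g / Nat.card H then (moebius d : ℤ) else 0 := by
      intro d hd
      have hd' := Nat.dvd_of_mem_divisors hd
      have hiff := mb_le_zpowers_pow_iff g hd' H
      by_cases hdm : d ∣ orderOf g / Nat.card H
      · rw [if_pos (hiff.mpr ⟨hle, hdm⟩), if_pos hdm, mul_one]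
      · rw [if_neg (fun h => hdm (hiff.mp h).2), if_neg hdm, mul_zero]
    rw [Finset.sum_congr rfl h1, ← Finset.sum_filter]
    have h2 : (orderOf g).divisors.filter (fun d => d ∣ orderOf g / Nat.card H) =
        (orderOf g / Nat.card H).divisors := by
      ext d
      simp only [Finset.mem_filter, Nat.mem_divisors]
      constructor
      · rintro ⟨-, h⟩
        exact ⟨h, hm_pos.ne'⟩
      · rintro ⟨h, -⟩
        exact ⟨⟨h.trans hm_dvd, hn.ne'⟩, h⟩
    rw [h2]
    have h3 : ∀ m : ℕ, ∑ d ∈ m.divisors, (moebius d : ℤ) = if m = 1 then 1 else 0 := by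
      intro m
      have := congrArg (fun f : ArithmeticFunction ℤ => f m) moebius_mul_coe_zeta
      simp only [coe_mul_zeta_apply, one_apply] at this
      exact this
    rw [h3]
    have h4 : orderOf g / Nat.card H = 1 ↔ H = Subgroup.zpowers g := by
      constructor
      · intro h
        apply Subgroup.eq_of_le_of_card_ge hle
        rw [Nat.card_zpowers]
        have h5 := Nat.div_mul_cancel hcard
        rw [h, one_mul] at h5
        exact h5.symm.le
      · intro h
        rw [h, Nat.card_zpowers, Nat.div_self hn]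
    simp only [h4]
  · have h1 : ∀ d ∈ (orderOf g).divisors,
        (moebius d : ℤ) * (if H ≤ Subgroup.zpowers (g ^ d) then (1 : ℤ) else 0) = 0 := by
      intro d _
      rw [if_neg, mul_zero]
      intro h
      exact hle (h.trans
        (Subgroup.zpowers_le.mpr (Subgroup.pow_mem _ (Subgroup.mem_zpowers g) d)))
    rw [Finset.sum_eq_zero h1, if_neg]
    rintro rfl
    exact hle le_rfl

/-- **Moebius inversion over the subgroups of a cyclic group.** -/
theorem moebius_sum_card {G : Type*} [Group G] [Finite G] (g : G) (D : G → Subgroup G) :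
    ∑ d ∈ (orderOf g).divisors, (moebius d : ℤ) * (Nat.card {x : G // D x ≤ Subgroup.zpowers (g ^ d)} : ℤ) =
      (Nat.card {x : G // D x = Subgroup.zpowers g} : ℤ) := by
  classical
  cases nonempty_fintype G
  have hcard : ∀ p : G → Prop, (Nat.card {x : G // p x} : ℤ) =
      ∑ x : G, if p x then (1 : ℤ) else 0 := by
    intro p
    rw [Nat.card_eq_fintype_card, Fintype.card_subtype, Finset.card_filter]
    push_cast
    rfl
  simp_rw [hcard, Finset.mul_sum]
  rw [Finset.sum_comm]
  exact Finset.sum_congr rfl fun x _ => mb_inner g (D x)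

/-- `φ = μ * id`. -/
theorem moebius_sum_div (n : ℕ) (hn : 0 < n) :
    ∑ d ∈ n.divisors, (moebius d : ℤ) * ((n / d : ℕ) : ℤ) = (Nat.totient n : ℤ) := by
  have h := (sum_eq_iff_sum_mul_moebius_eq (R := ℤ) (f := fun k => (Nat.totient k : ℤ))
    (g := fun k => (k : ℤ))).mp (fun k _ => by rw [← Nat.cast_sum, Nat.sum_totient]) n hn
  simp only [Int.cast_id] at h
  rw [← h, Nat.sum_divisorsAntidiagonal (f := fun a b => (moebius a : ℤ) * (b : ℤ))]

end Fermat.Agent.Frob
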