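import Mathlib
import Fermat.Agent.Frob.Defs
import Fermat.Agent.Lib.Frob.PrimeSumOfZeta
import Fermat.Agent.Frob.FixedCount
import Fermat.Agent.Frob.Moebius

/-!
# FROB-ASM: the Frobenius density theorem (existence form) for a Galois number field

`exists_prime_stabilizer_eq_zpowers`: for a Galois number field `L/ℚ`, an element `g` of
`Gal(L/ℚ)` and a finite set `S` of primes, there is a prime `p ∉ S`, unramified in `L`, and a
prime `P` of `𝓞 L` above `p` whose decomposition group is exactly the cyclic group `⟨g⟩`.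
-/

set_option autoImplicit false

namespace Fermat.Agent.Frob

open NumberField ArithmeticFunction
open scoped Pointwise

section
variable (L : Type*) [Field L] [NumberField L]

/-- every rational prime lies under a prime of `𝓞 L` -/
theorem asm_exists_prime_over {p : ℕ} (hp : p.Prime) :
    ∃ P : Ideal (𝓞 L), P.IsPrime ∧ (p : 𝓞 L) ∈ P := by
  have hp' : (Ideal.span {(p : ℤ)}).IsPrime := by
    rw [Ideal.span_singleton_prime (by exact_mod_cast hp.ne_zero)]
    exact Nat.prime_iff_prime_int.mp hp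
  obtain ⟨⟨P, hP1, hP2⟩⟩ := (Ideal.span {(p : ℤ)}).nonempty_primesOver (S := 𝓞 L)
  refine ⟨P, hP1, ?_⟩
  have h1 : (p : ℤ) ∈ P.under ℤ := by
    rw [← hP2.over]
    exact Ideal.subset_span rfl
  have h2 := Ideal.mem_comap.mp h1
  simpa using h2

theorem asm_natCast_mem_smul {p : ℕ} (P : Ideal (𝓞 L)) (hP : (p : 𝓞 L) ∈ P) (x : L ≃ₐ[ℚ] L) :
    (p : 𝓞 L) ∈ x • P := by
  have h : x • (p : 𝓞 L) ∈ x • P := Ideal.smul_mem_pointwise_smul x _ P hP
  have h2 : x • (p : 𝓞 L) = (p : 𝓞 L) := map_natCast (MulSemiringAction.toRingHom _ (𝓞 L) x) p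
  rwa [h2] at h

theorem asm_card_zpowers {g : L ≃ₐ[ℚ] L} {d : ℕ} (hd : d ∈ (orderOf g).divisors) :
    Nat.card (Subgroup.zpowers (g ^ d)) = orderOf g / d := by
  rw [Nat.card_zpowers]
  exact orderOf_pow_of_dvd (Nat.pos_of_mem_divisors hd).ne' (Nat.dvd_of_mem_divisors hd)

/-- **Frobenius density theorem, existence form, for a Galois number field.** -/
theorem exists_prime_stabilizer_eq_zpowers [IsGalois ℚ L] (g : L ≃ₐ[ℚ] L) (S : Finset ℕ) :
    ∃ p : ℕ, p.Prime ∧ p ∉ S ∧ ¬ (p : ℤ) ∣ NumberField.discr L ∧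
      ∃ P : Ideal (𝓞 L), P.IsPrime ∧ (p : 𝓞 L) ∈ P ∧
        MulAction.stabilizer (L ≃ₐ[ℚ] L) P = Subgroup.zpowers g := by
  classical
  by_contra hcon
  push Not at hcon
  set n := orderOf g with hn
  have hnpos : 0 < n := orderOf_pos g
  let a : ℕ → ℕ → ℕ := fun d p =>
    idealCount (IntermediateField.fixedField (Subgroup.zpowers (g ^ d))) p
  have hC : ∀ d : ℕ, ∃ C : ℝ, ∀ s : ℝ, 1 < s → s ≤ 2 →
      Summable (fun p : Nat.Primes => (a d p : ℝ) * (p : ℝ) ^ (-s)) ∧
      |∑' p : Nat.Primes, (a d p : ℝ) * (p : ℝ) ^ (-s) - Real.log (1 / (s - 1))| ≤ C :=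
    fun d => Fermat.Agent.Lib.Frob.primeSum_bound_aux
      (IntermediateField.fixedField (Subgroup.zpowers (g ^ d)))
  choose C hC using hC
  let γ : ℕ → ℝ := fun p =>
    ∑ d ∈ n.divisors, (moebius d : ℝ) * ((n / d : ℕ) : ℝ) * (a d p : ℝ)
  let bad : Finset ℕ := S ∪ (NumberField.discr L).natAbs.primeFactors
  -- the Möbius combination vanishes at the good primes
  have hγ0 : ∀ p : ℕ, p.Prime → p ∉ bad → γ p = 0 := by
    intro p hp hpbad
    have hpS : p ∉ S := fun h => hpbad (Finset.mem_union_left _ h)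
    have hpd : ¬ (p : ℤ) ∣ NumberField.discr L := by
      intro hdvd
      apply hpbad
      apply Finset.mem_union_right
      rw [Nat.mem_primeFactors]
      refine ⟨hp, Int.natCast_dvd.mp hdvd, ?_⟩
      simpa using NumberField.discr_ne_zero L
    obtain ⟨P, hPprime, hPmem⟩ := asm_exists_prime_over L hp
    have key := moebius_sum_card g (fun x => MulAction.stabilizer (L ≃ₐ[ℚ] L) (x • P))
    have hzero : Nat.card {x : L ≃ₐ[ℚ] L //
        MulAction.stabilizer (L ≃ₐ[ℚ] L) (x • P) = Subgroup.zpowers g} = 0 := by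
      rw [Nat.card_eq_zero]
      left
      constructor
      rintro ⟨x, hx⟩
      exact hcon p hp hpS hpd (x • P) inferInstance (asm_natCast_mem_smul L P hPmem x) hx
    rw [hzero] at key
    have hF2 : ∀ d ∈ n.divisors, (Nat.card {x : L ≃ₐ[ℚ] L //
        MulAction.stabilizer (L ≃ₐ[ℚ] L) (x • P) ≤ Subgroup.zpowers (g ^ d)} : ℤ) =
        ((n / d : ℕ) : ℤ) * (a d p : ℤ) := by
      intro d hd
      have h := card_mul_idealCount_fixedField L (Subgroup.zpowers (g ^ d)) hp hpd P hPmem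
      rw [asm_card_zpowers L hd] at h
      rw [← h]
      push_cast
      rfl
    have key2 : ∑ d ∈ n.divisors, (moebius d : ℤ) * (((n / d : ℕ) : ℤ) * (a d p : ℤ)) = 0 := by
      have h3 : ∑ d ∈ n.divisors, (moebius d : ℤ) * (((n / d : ℕ) : ℤ) * (a d p : ℤ)) =
          ∑ d ∈ n.divisors, (moebius d : ℤ) * (Nat.card {x : L ≃ₐ[ℚ] L //
            MulAction.stabilizer (L ≃ₐ[ℚ] L) (x • P) ≤ Subgroup.zpowers (g ^ d)} : ℤ) :=
        Finset.sum_congr rfl (fun d hd => by rw [hF2 d hd])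
      rw [h3]
      simpa using key
    have hcast : γ p = ((∑ d ∈ n.divisors,
        (moebius d : ℤ) * (((n / d : ℕ) : ℤ) * (a d p : ℤ)) : ℤ) : ℝ) := by
      simp only [γ, Int.cast_sum, Int.cast_mul, Int.cast_natCast]
      exact Finset.sum_congr rfl fun d _ => by ring
    rw [hcast, key2]
    simp
  have hCnonneg : ∀ d, 0 ≤ C d := fun d =>
    le_trans (abs_nonneg _) ((hC d 2 (by norm_num) le_rfl).2)
  have hφ : ∑ d ∈ n.divisors, (moebius d : ℝ) * ((n / d : ℕ) : ℝ) = (Nat.totient n : ℝ) := by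
    have h := congrArg (Int.cast : ℤ → ℝ) (moebius_sum_div n hnpos)
    simpa only [Int.cast_sum, Int.cast_mul, Int.cast_natCast] using h
  set Ctot : ℝ := ∑ d ∈ n.divisors, ((n / d : ℕ) : ℝ) * C d with hCtot
  set B : ℝ := ∑ p ∈ bad, |γ p| with hB
  have hBnonneg : 0 ≤ B := Finset.sum_nonneg fun _ _ => abs_nonneg _
  have hCtotnonneg : 0 ≤ Ctot :=
    Finset.sum_nonneg fun d _ => mul_nonneg (Nat.cast_nonneg _) (hCnonneg d)
  have main : ∀ s : ℝ, 1 < s → s ≤ 2 →
      (Nat.totient n : ℝ) * Real.log (1 / (s - 1)) ≤ B + Ctot := by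
    intro s hs1 hs2
    have hsum : ∀ d : ℕ, Summable (fun p : Nat.Primes => (a d p : ℝ) * (p : ℝ) ^ (-s)) :=
      fun d => (hC d s hs1 hs2).1
    have hT : ∑' p : Nat.Primes, γ p * ((p : ℕ) : ℝ) ^ (-s) =
        ∑ d ∈ n.divisors, (moebius d : ℝ) * ((n / d : ℕ) : ℝ) *
          ∑' p : Nat.Primes, (a d p : ℝ) * (p : ℝ) ^ (-s) := by
      simp only [γ, Finset.sum_mul]
      rw [Summable.tsum_finsetSum]
      · refine Finset.sum_congr rfl fun d _ => ?_
        rw [← tsum_mul_left]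
        exact tsum_congr fun p => by ring
      · intro d _
        exact ((hsum d).mul_left ((moebius d : ℝ) * ((n / d : ℕ) : ℝ))).congr
          (fun p => by ring)
    have hTle : ∑' p : Nat.Primes, γ p * ((p : ℕ) : ℝ) ^ (-s) ≤ B := by
      have h1 : ∑' p : Nat.Primes, γ p * ((p : ℕ) : ℝ) ^ (-s) =
          ∑ p ∈ bad.subtype Nat.Prime, γ (p : ℕ) * ((p : ℕ) : ℝ) ^ (-s) := by
        apply tsum_eq_sum
        intro p hp
        have hp' : (p : ℕ) ∉ bad := fun h' => hp (Finset.mem_subtype.mpr h')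
        rw [hγ0 p p.2 hp', zero_mul]
      rw [h1, Finset.sum_subtype_eq_sum_filter (f := fun p : ℕ => γ p * (p : ℝ) ^ (-s))]
      calc ∑ p ∈ bad with Nat.Prime p, γ p * (p : ℝ) ^ (-s)
          ≤ ∑ p ∈ bad with Nat.Prime p, |γ p| := by
            refine Finset.sum_le_sum fun p hp => ?_
            have hpp : Nat.Prime p := (Finset.mem_filter.mp hp).2
            have h0 : (0 : ℝ) ≤ (p : ℝ) ^ (-s) := Real.rpow_nonneg (Nat.cast_nonneg _) _
            have h1 : (p : ℝ) ^ (-s) ≤ 1 :=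
              Real.rpow_le_one_of_one_le_of_nonpos (by exact_mod_cast hpp.one_lt.le) (by linarith)
            calc γ p * (p : ℝ) ^ (-s) ≤ |γ p| * (p : ℝ) ^ (-s) :=
                  mul_le_mul_of_nonneg_right (le_abs_self _) h0
              _ ≤ |γ p| * 1 := mul_le_mul_of_nonneg_left h1 (abs_nonneg _)
              _ = |γ p| := mul_one _
        _ ≤ B := Finset.sum_le_sum_of_subset_of_nonneg (Finset.filter_subset _ _)
            (fun _ _ _ => abs_nonneg _)
    have hTge : (Nat.totient n : ℝ) * Real.log (1 / (s - 1)) - Ctot ≤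
        ∑' p : Nat.Primes, γ p * ((p : ℕ) : ℝ) ^ (-s) := by
      rw [hT, ← hφ, Finset.sum_mul, hCtot, ← Finset.sum_sub_distrib]
      refine Finset.sum_le_sum fun d _ => ?_
      have h := (hC d s hs1 hs2).2
      have hμ : |(moebius d : ℝ)| ≤ 1 := by exact_mod_cast abs_moebius_le_one
      have hnd : (0 : ℝ) ≤ ((n / d : ℕ) : ℝ) := Nat.cast_nonneg _
      set A := ∑' p : Nat.Primes, (a d p : ℝ) * (p : ℝ) ^ (-s) with hA
      set lg := Real.log (1 / (s - 1)) with hlg
      have h2 : (moebius d : ℝ) * (lg - A) ≤ C d := by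
        calc (moebius d : ℝ) * (lg - A) ≤ |(moebius d : ℝ) * (lg - A)| := le_abs_self _
          _ = |(moebius d : ℝ)| * |lg - A| := abs_mul _ _
          _ ≤ 1 * C d := by
              refine mul_le_mul hμ ?_ (abs_nonneg _) zero_le_one
              rwa [abs_sub_comm]
          _ = C d := one_mul _
      nlinarith [mul_le_mul_of_nonneg_left h2 hnd]
    linarith
  -- choose `s` close to `1`
  have hφpos : (0 : ℝ) < (Nat.totient n : ℝ) := by exact_mod_cast Nat.totient_pos.mpr hnpos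
  set t : ℝ := (B + Ctot + 1) / (Nat.totient n : ℝ) with ht
  have htpos : 0 < t := div_pos (by linarith) hφpos
  have hs1 : 1 < 1 + Real.exp (-t) := by linarith [Real.exp_pos (-t)]
  have hs2 : 1 + Real.exp (-t) ≤ 2 := by
    have : Real.exp (-t) ≤ 1 := Real.exp_le_one_iff.mpr (by linarith)
    linarith
  have h := main (1 + Real.exp (-t)) hs1 hs2
  have hlog : Real.log (1 / (1 + Real.exp (-t) - 1)) = t := by
    rw [add_sub_cancel_left, one_div, ← Real.exp_neg, neg_neg, Real.log_exp]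
  rw [hlog, ht, mul_div_cancel₀ _ hφpos.ne'] at h
  linarith

end

end Fermat.Agent.Frob
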