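import Mathlib
import Fermat.Prelude.Def_EllipticCurve_FrobeniusTrace
import Fermat.Prelude.Def_FLTPrelim_Ramification
import Fermat.Agent.Lib.Frob.Bridge
import Fermat.Agent.Frob.Unram

/-!
# FROB-F4: bridge from primes of a Galois number field to the prelude's Frobenius elements

For a finite Galois extension `F ⊆ AlgebraicClosure ℚ` of `ℚ`, a prime `p` not dividing the
discriminant of `F` and a prime `P ∋ p` of `𝓞 F`, there are a valuation subring `A` of
`AlgebraicClosure ℚ` lying over `p` and a Frobenius element `σ` at `A` (prelude notions) such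
that the decomposition group of `P` in `Gal(F/ℚ)` is generated by the restriction of `σ`.
(The construction is `Fermat.Agent.Lib.Frob.exists_isFrobeniusAt_isArithFrobAt`.)
-/

set_option autoImplicit false

namespace Fermat.Agent.Frob

local notation "Qb" => AlgebraicClosure ℚ
local notation "GQ" => (AlgebraicClosure ℚ ≃ₐ[ℚ] AlgebraicClosure ℚ)

open NumberField
open scoped Pointwise

theorem exists_isFrobeniusAt_stabilizer (F : IntermediateField ℚ Qb) [NumberField F] [IsGalois ℚ F]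
    {p : ℕ} (hp : p.Prime) (hpd : ¬ (p : ℤ) ∣ NumberField.discr F)
    (P : Ideal (𝓞 F)) [P.IsPrime] (hP : (p : 𝓞 F) ∈ P) :
    ∃ (A : ValuationSubring Qb) (σ : GQ), A.LiesOverPrime p ∧ A.IsFrobeniusAt σ p ∧
      MulAction.stabilizer (F ≃ₐ[ℚ] F) P = Subgroup.zpowers (AlgEquiv.restrictNormalHom F σ) := by
  obtain ⟨A, σ, hA, hσ, hτ, -⟩ := Lib.Frob.exists_isFrobeniusAt_isArithFrobAt F hp P hP
  exact ⟨A, σ, hA, hσ, stabilizer_eq_zpowers F hp hpd P hP _ hτ⟩

/-- Variant exporting also the arithmetic Frobenius property and the domination of `P`. -/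
theorem exists_isFrobeniusAt_stabilizer' (F : IntermediateField ℚ Qb) [NumberField F]
    [IsGalois ℚ F] {p : ℕ} (hp : p.Prime) (hpd : ¬ (p : ℤ) ∣ NumberField.discr F)
    (P : Ideal (𝓞 F)) [P.IsPrime] (hP : (p : 𝓞 F) ∈ P) :
    ∃ (A : ValuationSubring Qb) (σ : GQ), A.LiesOverPrime p ∧ A.IsFrobeniusAt σ p ∧
      IsArithFrobAt ℤ (AlgEquiv.restrictNormalHom F σ) P ∧
      MulAction.stabilizer (F ≃ₐ[ℚ] F) P = Subgroup.zpowers (AlgEquiv.restrictNormalHom F σ) ∧
      ∀ x : 𝓞 F, (((x : F) : Qb) ∈ A) ∧ (x ∈ P ↔ ((x : F) : Qb) ∈ A.nonunits) := by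
  obtain ⟨A, σ, hA, hσ, hτ, hdom⟩ := Lib.Frob.exists_isFrobeniusAt_isArithFrobAt F hp P hP
  exact ⟨A, σ, hA, hσ, hτ, stabilizer_eq_zpowers F hp hpd P hP _ hτ, hdom⟩

end Fermat.Agent.Frob
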