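import Mathlib
import Fermat.Prelude.Def_EllipticCurve_FrobeniusTrace
import Fermat.Prelude.Def_FLTPrelim_Ramification
import Fermat.Agent.Lib.GalQbar
import Fermat.Agent.Frob.Abstract
import Fermat.Agent.Frob.Bridge

/-!
# FROB: the Frobenius density theorem, existence form, for `Gal(ℚ̄/ℚ)`

`exists_frobenius_generating`: for a finite extension `F/ℚ` inside `AlgebraicClosure ℚ`, a finite
set `S` of primes and `g ∈ Gal(ℚ̄/ℚ)` there are a prime `ℓ ∉ S`, a valuation subring `A` of `ℚ̄`
over `ℓ` and a Frobenius element `σ` at `A` such that `σ` and `g` generate the same cyclic group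
of automorphisms of `F` (each is a power of the other on `F`).
-/

set_option autoImplicit false

namespace Fermat.Agent.Frob

open NumberField
open scoped Pointwise

local notation "Qb" => AlgebraicClosure ℚ
local notation "GQ" => (AlgebraicClosure ℚ ≃ₐ[ℚ] AlgebraicClosure ℚ)

/-- restriction of a power, evaluated. -/
theorem main_restrict_pow_apply (F : IntermediateField ℚ Qb) [Normal ℚ F] (σ : GQ) (k : ℕ)
    (x : F) : (((AlgEquiv.restrictNormalHom F σ) ^ k) x : Qb) = (σ ^ k) (x : Qb) := by
  have h : (AlgEquiv.restrictNormalHom F σ) ^ k = AlgEquiv.restrictNormalHom F (σ ^ k) :=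
    (map_pow (AlgEquiv.restrictNormalHom F) σ k).symm
  rw [h]
  exact AlgEquiv.restrictNormal_commutes (σ ^ k) F x

/-- **Frobenius density theorem, existence form.** -/
theorem exists_frobenius_generating (F : IntermediateField ℚ Qb) [FiniteDimensional ℚ F]
    (S : Finset ℕ) (g : GQ) :
    ∃ ℓ : ℕ, ℓ.Prime ∧ ℓ ∉ S ∧ ∃ (A : ValuationSubring Qb) (σ : GQ) (k j : ℕ),
      A.LiesOverPrime ℓ ∧ A.IsFrobeniusAt σ ℓ ∧
      (∀ x ∈ F, g x = (σ ^ k) x) ∧ (∀ x ∈ F, σ x = (g ^ j) x) := by
  let F' : IntermediateField ℚ Qb := IntermediateField.normalClosure ℚ F Qb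
  have hFF' : F ≤ F' := IntermediateField.le_normalClosure F
  have : Normal ℚ Qb := Fermat.Agent.Lib.GalQbar.normal_rat
  have : Normal ℚ F' := normalClosure.normal ℚ F Qb
  have : FiniteDimensional ℚ F' := normalClosure.is_finiteDimensional ℚ F Qb
  have : NumberField F' := { to_charZero := inferInstance, to_finiteDimensional := inferInstance }
  have : IsGalois ℚ F' := { to_isSeparable := inferInstance, to_normal := inferInstance }
  obtain ⟨p, hp, hpS, hpd, P, hPprime, hPmem, hstab⟩ :=
    exists_prime_stabilizer_eq_zpowers F' (AlgEquiv.restrictNormalHom F' g) S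
  obtain ⟨A, σ, hA, hσ, hstab'⟩ := exists_isFrobeniusAt_stabilizer F' hp hpd P hPmem
  have heq : Subgroup.zpowers (AlgEquiv.restrictNormalHom F' g) =
      Subgroup.zpowers (AlgEquiv.restrictNormalHom F' σ) := hstab.symm.trans hstab'
  have h1 : AlgEquiv.restrictNormalHom F' g ∈
      Submonoid.powers (AlgEquiv.restrictNormalHom F' σ) := by
    rw [mem_powers_iff_mem_zpowers, ← heq]
    exact Subgroup.mem_zpowers _
  have h2 : AlgEquiv.restrictNormalHom F' σ ∈
      Submonoid.powers (AlgEquiv.restrictNormalHom F' g) := by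
    rw [mem_powers_iff_mem_zpowers, heq]
    exact Subgroup.mem_zpowers _
  obtain ⟨k, hk⟩ := h1
  obtain ⟨j, hj⟩ := h2
  replace hk : (AlgEquiv.restrictNormalHom F' σ) ^ k = AlgEquiv.restrictNormalHom F' g := hk
  replace hj : (AlgEquiv.restrictNormalHom F' g) ^ j = AlgEquiv.restrictNormalHom F' σ := hj
  refine ⟨p, hp, hpS, A, σ, k, j, hA, hσ, ?_, ?_⟩
  · intro x hx
    have h := main_restrict_pow_apply F' σ k ⟨x, hFF' hx⟩
    rw [hk] at h
    rw [← h]
    exact (AlgEquiv.restrictNormal_commutes g F' ⟨x, hFF' hx⟩).symm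
  · intro x hx
    have h := main_restrict_pow_apply F' g j ⟨x, hFF' hx⟩
    rw [hj] at h
    rw [← h]
    exact (AlgEquiv.restrictNormal_commutes σ F' ⟨x, hFF' hx⟩).symm

end Fermat.Agent.Frob
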