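import Mathlib
import Fermat.Agent.Frob.Defs
import Fermat.Agent.Frob.Unram

/-!
# FROB-F2alt (task 136): degree-one primes of a fixed field, via characters

`L / ℚ` Galois with group `G`, `p ∤ disc L`, `P ∣ p` a prime of `𝓞 L`, `H ≤ G`, `K = L ^ H`.
Then `|H| * #{𝔮 ⊂ 𝓞 K : N 𝔮 = p} = #{y ∈ G : Stab (y • P) ≤ H}`.

Route: for `x ∈ G` let `ψ_x : 𝓞 K →+* 𝓞 L ⧸ P`, `a ↦ x • a mod P`.
* `ψ_{x h} = ψ_x` for `h ∈ H`, and `ψ_x = ψ_y → x⁻¹ y ∈ H` (Dedekind independence of the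
  characters `b ↦ g • b mod P` of `𝓞 L`, which are pairwise distinct because the inertia group
  is trivial, applied to the `H`-traces);
* `N (ker ψ_x) = p` iff `ψ_x` takes values in the prime field iff `ψ_{σ x} = ψ_x`
  (`σ` a Frobenius at `P`) iff `x⁻¹ σ x ∈ H`;
* every ideal of norm `p` of `𝓞 K` is some `ker ψ_x` (lying over + transitivity).

No prime-ideal theory for the pair `(H, 𝓞 K)` is used.  Helper lemmas are prefixed `fa_`.
-/

set_option autoImplicit false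

namespace Fermat.Agent.Frob

open NumberField
open scoped Pointwise

/-! ### Ring homomorphisms into a field of characteristic `p` with values in the prime field -/

/-- The prime field is contained in the range of any ring homomorphism. -/
theorem fa_bot_subset_range {R k : Type*} [CommRing R] [Field k] (p : ℕ) [Fact p.Prime]
    [CharP k p] (ψ : R →+* k) : ((⊥ : Subfield k) : Set k) ⊆ (ψ.range : Set k) := by
  intro t ht
  have ht' : t ∈ (ZMod.castHom (dvd_refl p) k).fieldRange := by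
    rw [ZMod.fieldRange_castHom_eq_bot p]
    exact ht
  obtain ⟨z, rfl⟩ := ht'
  refine ⟨(z.val : R), ?_⟩
  rw [map_natCast, ZMod.castHom_apply, ZMod.natCast_val]

/-- An element of the prime field is the image of a natural number. -/
theorem fa_exists_natCast_of_pow_eq {k : Type*} [Field k] (p : ℕ) [Fact p.Prime] [CharP k p]
    {t : k} (ht : t ^ p = t) : ∃ n : ℕ, t = n := by
  have h1 : t ∈ (⊥ : Subfield k) := (Subfield.mem_bot_iff_pow_eq_self k p).mpr ht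
  have ht' : t ∈ (ZMod.castHom (dvd_refl p) k).fieldRange := by
    rw [ZMod.fieldRange_castHom_eq_bot p]
    exact h1
  obtain ⟨z, rfl⟩ := ht'
  exact ⟨z.val, by rw [ZMod.castHom_apply, ZMod.natCast_val]⟩

/-- The range of a ring homomorphism into a finite field of characteristic `p` has `p` elements
iff all its values are fixed by the Frobenius. -/
theorem fa_card_range_eq_iff {R k : Type*} [CommRing R] [Field k] [Finite k] (p : ℕ)
    [Fact p.Prime] [CharP k p] (ψ : R →+* k) :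
    Nat.card ψ.range = p ↔ ∀ a, ψ a ^ p = ψ a := by
  have hsub := fa_bot_subset_range p ψ
  have hcard : Set.ncard ((⊥ : Subfield k) : Set k) = p := by
    rw [← Nat.card_coe_set_eq]
    exact Subfield.card_bot k p
  have hcard' : Nat.card ψ.range = Set.ncard (ψ.range : Set k) := Nat.card_coe_set_eq _
  constructor
  · intro h a
    have heq : ((⊥ : Subfield k) : Set k) = (ψ.range : Set k) :=
      Set.eq_of_subset_of_ncard_le hsub (by rw [hcard, ← hcard', h]) (Set.toFinite _)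
    have ha : ψ a ∈ ((⊥ : Subfield k) : Set k) := by
      rw [heq]
      exact ⟨a, rfl⟩
    exact (Subfield.mem_bot_iff_pow_eq_self k p).mp ha
  · intro h
    have heq : (ψ.range : Set k) = ((⊥ : Subfield k) : Set k) := by
      refine Set.Subset.antisymm ?_ hsub
      rintro t ⟨a, rfl⟩
      exact (Subfield.mem_bot_iff_pow_eq_self k p).mpr (h a)
    rw [hcard', heq, hcard]

/-- The absolute norm of the kernel of a ring homomorphism is the cardinality of its range. -/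
theorem fa_absNorm_ker {R k : Type*} [CommRing R] [IsDedekindDomain R] [Module.Free ℤ R]
    [CommRing k] (ψ : R →+* k) : Ideal.absNorm (RingHom.ker ψ) = Nat.card ψ.range := by
  rw [Ideal.absNorm_apply, Submodule.cardQuot_apply]
  exact Nat.card_congr (RingHom.quotientKerEquivRange ψ).toEquiv

/-! ### The characters `ψ_x` -/

section Psi

variable {L : Type*} [Field L] [NumberField L]
variable (H : Subgroup (L ≃ₐ[ℚ] L)) (P : Ideal (𝓞 L))

/-- `ψ_x : 𝓞 K →+* 𝓞 L ⧸ P`, `a ↦ x • a mod P`, where `K = L ^ H`. -/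
noncomputable def fa_psi (x : L ≃ₐ[ℚ] L) :
    𝓞 (IntermediateField.fixedField H) →+* 𝓞 L ⧸ P :=
  (Ideal.Quotient.mk P).comp
    ((MulSemiringAction.toRingHom (L ≃ₐ[ℚ] L) (𝓞 L) x).comp
      (algebraMap (𝓞 (IntermediateField.fixedField H)) (𝓞 L)))

theorem fa_psi_apply (x : L ≃ₐ[ℚ] L) (a : 𝓞 (IntermediateField.fixedField H)) :
    fa_psi H P x a
      = Ideal.Quotient.mk P (x • algebraMap (𝓞 (IntermediateField.fixedField H)) (𝓞 L) a) :=
  rfl

/-- Elements of `𝓞 K` are fixed by `H`. -/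
theorem fa_smul_algebraMap {h : L ≃ₐ[ℚ] L} (hh : h ∈ H)
    (a : 𝓞 (IntermediateField.fixedField H)) :
    h • algebraMap (𝓞 (IntermediateField.fixedField H)) (𝓞 L) a
      = algebraMap (𝓞 (IntermediateField.fixedField H)) (𝓞 L) a := by
  apply Subtype.ext
  have ha : ((a : IntermediateField.fixedField H) : L) ∈ IntermediateField.fixedField H :=
    (a : IntermediateField.fixedField H).2
  exact ha ⟨h, hh⟩

/-- An `H`-invariant element of `𝓞 L` comes from `𝓞 K`. -/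
theorem fa_exists_algebraMap_eq (b : 𝓞 L) (hb : ∀ h ∈ H, h • b = b) :
    ∃ a : 𝓞 (IntermediateField.fixedField H),
      algebraMap (𝓞 (IntermediateField.fixedField H)) (𝓞 L) a = b := by
  have hmem : (b : L) ∈ IntermediateField.fixedField H := by
    intro h
    exact congrArg (fun c : 𝓞 L => (c : L)) (hb h h.2)
  have hint : IsIntegral ℤ (⟨(b : L), hmem⟩ : IntermediateField.fixedField H) := by
    have h1 : IsIntegral ℤ (algebraMap (IntermediateField.fixedField H) L ⟨(b : L), hmem⟩) :=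
      b.isIntegral_coe
    exact (isIntegral_algebraMap_iff
      (FaithfulSMul.algebraMap_injective (IntermediateField.fixedField H) L)).mp h1
  refine ⟨IsIntegralClosure.mk' (𝓞 (IntermediateField.fixedField H))
    (⟨(b : L), hmem⟩ : IntermediateField.fixedField H) hint, ?_⟩
  apply Subtype.ext
  have h2 := IsIntegralClosure.algebraMap_mk' (𝓞 (IntermediateField.fixedField H))
    (⟨(b : L), hmem⟩ : IntermediateField.fixedField H) hint
  exact congrArg (fun c : IntermediateField.fixedField H => (c : L)) h2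

/-- `ψ_{x h} = ψ_x` for `h ∈ H`. -/
theorem fa_psi_mul_of_mem (x : L ≃ₐ[ℚ] L) {h : L ≃ₐ[ℚ] L} (hh : h ∈ H) :
    fa_psi H P (x * h) = fa_psi H P x := by
  ext a
  rw [fa_psi_apply, fa_psi_apply, mul_smul, fa_smul_algebraMap H hh]

theorem fa_psi_eq_of_mem {x y : L ≃ₐ[ℚ] L} (h : x⁻¹ * y ∈ H) : fa_psi H P y = fa_psi H P x := by
  have := fa_psi_mul_of_mem H P x h
  rwa [mul_inv_cancel_left] at this

/-- Reindexing a sum over a left coset. -/
theorem fa_sum_coset {M : Type*} [AddCommMonoid M] [Fintype (L ≃ₐ[ℚ] L)]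
    [DecidablePred (· ∈ H)] (x : L ≃ₐ[ℚ] L) (F : (L ≃ₐ[ℚ] L) → M) :
    ∑ g, (if x⁻¹ * g ∈ H then F g else 0) = ∑ g, (if g ∈ H then F (x * g) else 0) := by
  refine (Fintype.sum_equiv (Equiv.mulLeft x) _ _ (fun g => ?_)).symm
  simp

/-- The `H`-trace of an element of `𝓞 L`. -/
noncomputable def fa_trace [Fintype (L ≃ₐ[ℚ] L)] [DecidablePred (· ∈ H)] (b : 𝓞 L) : 𝓞 L :=
  ∑ g : L ≃ₐ[ℚ] L, if g ∈ H then g • b else 0

theorem fa_smul_trace [Fintype (L ≃ₐ[ℚ] L)] [DecidablePred (· ∈ H)] {h : L ≃ₐ[ℚ] L}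
    (hh : h ∈ H) (b : 𝓞 L) : h • fa_trace H b = fa_trace H b := by
  unfold fa_trace
  rw [Finset.smul_sum]
  have e1 : ∀ g : L ≃ₐ[ℚ] L, h • (if g ∈ H then g • b else 0)
      = if g ∈ H then (h * g) • b else 0 := by
    intro g
    split_ifs
    · rw [mul_smul]
    · rw [smul_zero]
  simp only [e1]
  have e2 := fa_sum_coset H h (fun g => g • b)
  rw [← e2]
  refine Finset.sum_congr rfl (fun g _ => ?_)
  have : h⁻¹ * g ∈ H ↔ g ∈ H := by
    constructor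
    · intro h1
      have := H.mul_mem hh h1
      rwa [mul_inv_cancel_left] at this
    · intro h1
      exact H.mul_mem (H.inv_mem hh) h1
  simp only [this]

/-- **Separation**: if `ψ_x = ψ_y` and the inertia group of `P` is trivial then `x H = y H`.
(Dedekind's independence of characters applied to `H`-traces.) -/
theorem fa_mem_of_psi_eq [P.IsPrime] (hin : P.inertia (L ≃ₐ[ℚ] L) = ⊥) {x y : L ≃ₐ[ℚ] L}
    (hxy : fa_psi H P x = fa_psi H P y) : x⁻¹ * y ∈ H := by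
  classical
  by_contra hne
  have : Fintype (L ≃ₐ[ℚ] L) := Fintype.ofFinite _
  let Φ : (L ≃ₐ[ℚ] L) → (𝓞 L →+* 𝓞 L ⧸ P) := fun g =>
    (Ideal.Quotient.mk P).comp (MulSemiringAction.toRingHom (L ≃ₐ[ℚ] L) (𝓞 L) g)
  have hΦ : ∀ g b, Φ g b = Ideal.Quotient.mk P (g • b) := fun g b => rfl
  let χ : (L ≃ₐ[ℚ] L) → (𝓞 L →* 𝓞 L ⧸ P) := fun g => (Φ g).toMonoidHom
  have hχ : ∀ g b, χ g b = Ideal.Quotient.mk P (g • b) := fun g b => rfl
  have hinj : Function.Injective χ := by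
    intro g g' hgg
    have hmem : g * g'⁻¹ ∈ P.inertia (L ≃ₐ[ℚ] L) := by
      intro a
      have h1 := DFunLike.congr_fun hgg (g'⁻¹ • a)
      rw [hχ, hχ, smul_inv_smul] at h1
      rw [mul_smul]
      exact Ideal.Quotient.eq.mp h1
    rw [hin, Subgroup.mem_bot] at hmem
    exact mul_inv_eq_one.mp hmem
  have hli : LinearIndependent (𝓞 L ⧸ P) (fun g => (χ g : 𝓞 L → 𝓞 L ⧸ P)) :=
    (linearIndependent_monoidHom (𝓞 L) (𝓞 L ⧸ P)).comp χ hinj
  let c : (L ≃ₐ[ℚ] L) → 𝓞 L ⧸ P := fun g =>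
    (if x⁻¹ * g ∈ H then 1 else 0) - (if y⁻¹ * g ∈ H then 1 else 0)
  -- the key identity: the coset sums are the values of `ψ` on the trace
  have hcoset : ∀ (z : L ≃ₐ[ℚ] L) (b : 𝓞 L),
      ∑ g, (if z⁻¹ * g ∈ H then χ g b else 0) = Ideal.Quotient.mk P (z • fa_trace H b) := by
    intro z b
    rw [fa_sum_coset H z (fun g => χ g b), ← hΦ z, fa_trace, map_sum]
    refine Finset.sum_congr rfl (fun g _ => ?_)
    split_ifs
    · rw [hΦ, hχ, mul_smul]
    · rw [map_zero]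
  have hsum : ∑ g, c g • (χ g : 𝓞 L → 𝓞 L ⧸ P) = 0 := by
    funext b
    simp only [Finset.sum_apply, Pi.smul_apply, smul_eq_mul, Pi.zero_apply]
    have e : ∀ g, c g * χ g b
        = (if x⁻¹ * g ∈ H then χ g b else 0) - (if y⁻¹ * g ∈ H then χ g b else 0) := by
      intro g
      simp only [c, sub_mul, ite_mul, one_mul, zero_mul]
    simp only [e, Finset.sum_sub_distrib]
    rw [hcoset x b, hcoset y b]
    obtain ⟨a, ha⟩ := fa_exists_algebraMap_eq H (fa_trace H b)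
      (fun h hh => fa_smul_trace H hh b)
    have h1 := DFunLike.congr_fun hxy a
    rw [fa_psi_apply, fa_psi_apply, ha] at h1
    rw [h1, sub_self]
  have hc := Fintype.linearIndependent_iff.mp hli c hsum x
  have hx1 : x⁻¹ * x ∈ H := by
    rw [inv_mul_cancel]
    exact H.one_mem
  have hy1 : ¬ (y⁻¹ * x ∈ H) := fun h => hne (by
    have := H.inv_mem h
    rwa [mul_inv_rev, inv_inv] at this)
  simp only [c, if_pos hx1, if_neg hy1, sub_zero] at hc
  exact one_ne_zero hc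

end Psi

/-! ### Frobenius, degree-one primes and the count -/

section Main

variable (L : Type*) [Field L] [NumberField L] [IsGalois ℚ L]
variable (H : Subgroup (L ≃ₐ[ℚ] L))

omit [NumberField L] [IsGalois ℚ L] in
/-- The residue ring at `P ∣ p` has characteristic `p`. -/
theorem fa_charP {p : ℕ} (hp : p.Prime) (P : Ideal (𝓞 L)) [P.IsPrime] (hP : (p : 𝓞 L) ∈ P) :
    CharP (𝓞 L ⧸ P) p := by
  have : Nontrivial (𝓞 L ⧸ P) := Ideal.Quotient.nontrivial_iff.mpr Ideal.IsPrime.ne_top'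
  refine (CharP.charP_iff_prime_eq_zero hp).mpr ?_
  have h1 : ((p : 𝓞 L ⧸ P)) = Ideal.Quotient.mk P (p : 𝓞 L) := (map_natCast _ p).symm
  rw [h1, Ideal.Quotient.eq_zero_iff_mem]
  exact hP

omit [IsGalois ℚ L] in
/-- The residue ring at `P ∣ p` is finite. -/
theorem fa_finite_quot {p : ℕ} (hp : p.Prime) (P : Ideal (𝓞 L)) [P.IsPrime]
    (hP : (p : 𝓞 L) ∈ P) : Finite (𝓞 L ⧸ P) := by
  apply Nat.finite_of_card_ne_zero
  rw [ur_card_quot_eq_pow_inertiaDeg L hp P hP]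
  exact pow_ne_zero _ hp.ne_zero

omit [IsGalois ℚ L] in
/-- `ψ_{σ x} = (ψ_x) ^ p` for a Frobenius `σ` at `P`. -/
theorem fa_psi_frob {p : ℕ} (hp : p.Prime) (P : Ideal (𝓞 L)) [P.IsPrime] (hP : (p : 𝓞 L) ∈ P)
    (σ : L ≃ₐ[ℚ] L) (hσ : IsArithFrobAt ℤ σ P) (x : L ≃ₐ[ℚ] L)
    (a : 𝓞 (IntermediateField.fixedField H)) :
    fa_psi H P (σ * x) a = fa_psi H P x a ^ p := by
  rw [fa_psi_apply, fa_psi_apply, mul_smul]
  have h := ur_frob_pow_mk L hp P hP σ hσ 1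
    (x • algebraMap (𝓞 (IntermediateField.fixedField H)) (𝓞 L) a)
  rwa [pow_one, pow_one] at h

/-- `ψ_x` takes values in the prime field iff `x⁻¹ σ x ∈ H`. -/
theorem fa_degOne_iff {p : ℕ} (hp : p.Prime) (hpd : ¬ (p : ℤ) ∣ NumberField.discr L)
    (P : Ideal (𝓞 L)) [P.IsPrime] (hP : (p : 𝓞 L) ∈ P)
    (σ : L ≃ₐ[ℚ] L) (hσ : IsArithFrobAt ℤ σ P) (x : L ≃ₐ[ℚ] L) :
    (∀ a, fa_psi H P x a ^ p = fa_psi H P x a) ↔ x⁻¹ * σ * x ∈ H := by
  constructor
  · intro h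
    have hxy : fa_psi H P x = fa_psi H P (σ * x) := by
      ext a
      rw [fa_psi_frob L H hp P hP σ hσ, h a]
    have := fa_mem_of_psi_eq H P (inertia_eq_bot L hp hpd P hP) hxy
    rwa [← mul_assoc] at this
  · intro h a
    have h' : x⁻¹ * (σ * x) ∈ H := by rwa [← mul_assoc]
    rw [← fa_psi_frob L H hp P hP σ hσ, fa_psi_eq_of_mem H P h']

omit [IsGalois ℚ L] in
/-- `N (ker ψ_x) = p` iff `ψ_x` takes values in the prime field. -/
theorem fa_absNorm_ker_eq_iff {p : ℕ} (hp : p.Prime)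
    (P : Ideal (𝓞 L)) [P.IsPrime] (hP : (p : 𝓞 L) ∈ P) (x : L ≃ₐ[ℚ] L) :
    Ideal.absNorm (RingHom.ker (fa_psi H P x)) = p ↔
      ∀ a, fa_psi H P x a ^ p = fa_psi H P x a := by
  have hmax := ur_isMaximal L hp P hP
  let _ : Field (𝓞 L ⧸ P) := Ideal.Quotient.field P
  have : Fact p.Prime := ⟨hp⟩
  have := fa_charP L hp P hP
  have := fa_finite_quot L hp P hP
  rw [fa_absNorm_ker]
  exact fa_card_range_eq_iff p (fa_psi H P x)

omit [IsGalois ℚ L] in
/-- Two degree-one characters with the same kernel are equal. -/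
theorem fa_psi_eq_of_ker_eq {p : ℕ} (hp : p.Prime)
    (P : Ideal (𝓞 L)) [P.IsPrime] (hP : (p : 𝓞 L) ∈ P) {x x' : L ≃ₐ[ℚ] L}
    (hx : ∀ a, fa_psi H P x a ^ p = fa_psi H P x a)
    (hker : RingHom.ker (fa_psi H P x) = RingHom.ker (fa_psi H P x')) :
    fa_psi H P x = fa_psi H P x' := by
  have hmax := ur_isMaximal L hp P hP
  let _ : Field (𝓞 L ⧸ P) := Ideal.Quotient.field P
  have : Fact p.Prime := ⟨hp⟩
  have := fa_charP L hp P hP
  ext a
  obtain ⟨n, hn⟩ := fa_exists_natCast_of_pow_eq p (hx a)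
  have h1 : a - (n : 𝓞 (IntermediateField.fixedField H)) ∈ RingHom.ker (fa_psi H P x) := by
    rw [RingHom.mem_ker, map_sub, map_natCast, hn, sub_self]
  rw [hker, RingHom.mem_ker, map_sub, map_natCast, sub_eq_zero] at h1
  rw [hn, h1]

/-- Every ideal of norm `p` of `𝓞 K` is the kernel of some `ψ_x`. -/
theorem fa_exists_ker_eq {p : ℕ} (hp : p.Prime)
    (P : Ideal (𝓞 L)) [P.IsPrime] (hP : (p : 𝓞 L) ∈ P)
    (𝔮 : Ideal (𝓞 (IntermediateField.fixedField H))) (h𝔮 : Ideal.absNorm 𝔮 = p) :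
    ∃ x : L ≃ₐ[ℚ] L, RingHom.ker (fa_psi H P x) = 𝔮 := by
  have hprime : 𝔮.IsPrime :=
    Ideal.isPrime_of_irreducible_absNorm (by rw [h𝔮]; exact Nat.prime_iff.mp hp |>.irreducible)
  have hp𝔮 : ((p : ℕ) : 𝓞 (IntermediateField.fixedField H)) ∈ 𝔮 := h𝔮 ▸ Ideal.absNorm_mem 𝔮
  have hbot : Ideal.comap (algebraMap (𝓞 (IntermediateField.fixedField H)) (𝓞 L)) ⊥ ≤ 𝔮 := by
    intro a ha
    rw [Ideal.mem_comap, Ideal.mem_bot] at ha
    have : a = 0 := (FaithfulSMul.algebraMap_injective _ (𝓞 L)) (by rw [ha, map_zero])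
    rw [this]
    exact 𝔮.zero_mem
  obtain ⟨Q, -, hQprime, hQ⟩ := Ideal.exists_ideal_over_prime_of_isIntegral 𝔮 (⊥ : Ideal (𝓞 L)) hbot
  have hpQ : (p : 𝓞 L) ∈ Q := by
    have h1 : algebraMap (𝓞 (IntermediateField.fixedField H)) (𝓞 L) (p : 𝓞 _) ∈ Q := by
      rw [← Ideal.mem_comap, hQ]
      exact hp𝔮
    rwa [map_natCast] at h1
  have hunder : Ideal.under ℤ P = Ideal.under ℤ Q := by
    rw [ur_under_eq L hp P hP, ur_under_eq L hp Q hpQ]
  obtain ⟨g, hg⟩ := Algebra.IsInvariant.exists_smul_of_under_eq ℤ (𝓞 L) (L ≃ₐ[ℚ] L) P Q hunder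
  refine ⟨g⁻¹, ?_⟩
  ext a
  rw [RingHom.mem_ker, fa_psi_apply, Ideal.Quotient.eq_zero_iff_mem, ← hQ, Ideal.mem_comap, hg,
    Ideal.mem_pointwise_smul_iff_inv_smul_mem]

/-- `Stab (y • P) ≤ H` iff `y σ y⁻¹ ∈ H`. -/
theorem fa_stabilizer_le_iff {p : ℕ} (hp : p.Prime) (hpd : ¬ (p : ℤ) ∣ NumberField.discr L)
    (P : Ideal (𝓞 L)) [P.IsPrime] (hP : (p : 𝓞 L) ∈ P)
    (σ : L ≃ₐ[ℚ] L) (hσ : IsArithFrobAt ℤ σ P) (y : L ≃ₐ[ℚ] L) :
    MulAction.stabilizer (L ≃ₐ[ℚ] L) (y • P) ≤ H ↔ y * σ * y⁻¹ ∈ H := by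
  rw [MulAction.stabilizer_smul_eq_stabilizer_map_conj, stabilizer_eq_zpowers L hp hpd P hP σ hσ,
    MonoidHom.map_zpowers, Subgroup.zpowers_le]
  rfl

/-- **FROB-F2 (second route).**  For `L / ℚ` Galois, `p ∤ disc L`, `P ∣ p` and `H ≤ Gal(L/ℚ)`:
`|H|` times the number of ideals of norm `p` of the ring of integers of `L ^ H` is the number of
`x` with `Stab (x • P) ≤ H`. -/
theorem card_mul_idealCount_fixedField_alt (H : Subgroup (L ≃ₐ[ℚ] L)) {p : ℕ} (hp : p.Prime)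
    (hpd : ¬ (p : ℤ) ∣ NumberField.discr L) (P : Ideal (𝓞 L)) [P.IsPrime] (hP : (p : 𝓞 L) ∈ P) :
    Nat.card H * idealCount (IntermediateField.fixedField H) p =
      Nat.card {x : L ≃ₐ[ℚ] L // MulAction.stabilizer (L ≃ₐ[ℚ] L) (x • P) ≤ H} := by
  classical
  have hfin := fa_finite_quot L hp P hP
  obtain ⟨σ, hσ⟩ := IsArithFrobAt.exists_of_isInvariant ℤ (L ≃ₐ[ℚ] L) P
  -- `y ∈ X` iff `ψ_{y⁻¹}` has degree one
  have hdeg : ∀ y : L ≃ₐ[ℚ] L, MulAction.stabilizer (L ≃ₐ[ℚ] L) (y • P) ≤ H ↔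
      ∀ a, fa_psi H P y⁻¹ a ^ p = fa_psi H P y⁻¹ a := by
    intro y
    rw [fa_stabilizer_le_iff L H hp hpd P hP σ hσ, fa_degOne_iff L H hp hpd P hP σ hσ, inv_inv]
  -- the map to ideals of norm `p`
  let φ : {x : L ≃ₐ[ℚ] L // MulAction.stabilizer (L ≃ₐ[ℚ] L) (x • P) ≤ H} →
      {I : Ideal (𝓞 (IntermediateField.fixedField H)) // Ideal.absNorm I = p} := fun y =>
    ⟨RingHom.ker (fa_psi H P y.1⁻¹),
      (fa_absNorm_ker_eq_iff L H hp P hP _).mpr ((hdeg y.1).mp y.2)⟩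
  have hφ : ∀ y, (φ y).1 = RingHom.ker (fa_psi H P y.1⁻¹) := fun y => rfl
  -- its fibres are the left `H`-cosets
  have hfib : ∀ y y', φ y = φ y' ↔ y.1 * y'.1⁻¹ ∈ H := by
    intro y y'
    constructor
    · intro h
      have hker : RingHom.ker (fa_psi H P y.1⁻¹) = RingHom.ker (fa_psi H P y'.1⁻¹) := by
        rw [← hφ, ← hφ, h]
      have hpsi := fa_psi_eq_of_ker_eq L H hp P hP ((hdeg y.1).mp y.2) hker
      have := fa_mem_of_psi_eq H P (inertia_eq_bot L hp hpd P hP) hpsi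
      rwa [inv_inv] at this
    · intro h
      apply Subtype.ext
      rw [hφ, hφ]
      have h' : (y.1⁻¹)⁻¹ * y'.1⁻¹ ∈ H := by rwa [inv_inv]
      rw [fa_psi_eq_of_mem H P h']
  -- it is surjective
  have hsurj : ∀ 𝔮, ∃ y, φ y = 𝔮 := by
    intro 𝔮
    obtain ⟨x, hx⟩ := fa_exists_ker_eq L H hp P hP 𝔮.1 𝔮.2
    have hdx : ∀ a, fa_psi H P x a ^ p = fa_psi H P x a :=
      (fa_absNorm_ker_eq_iff L H hp P hP x).mp (hx ▸ 𝔮.2)
    have hX : MulAction.stabilizer (L ≃ₐ[ℚ] L) (x⁻¹ • P) ≤ H :=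
      (hdeg x⁻¹).mpr (by rwa [inv_inv])
    refine ⟨⟨x⁻¹, hX⟩, Subtype.ext ?_⟩
    rw [hφ]
    show RingHom.ker (fa_psi H P (x⁻¹)⁻¹) = 𝔮.1
    rw [inv_inv, hx]
  choose s hs using hsurj
  -- `X` is stable under left multiplication by `H`
  have hstab : ∀ (h : H) (y : {x : L ≃ₐ[ℚ] L // MulAction.stabilizer (L ≃ₐ[ℚ] L) (x • P) ≤ H}),
      MulAction.stabilizer (L ≃ₐ[ℚ] L) ((h.1 * y.1) • P) ≤ H := by
    intro h y
    rw [fa_stabilizer_le_iff L H hp hpd P hP σ hσ]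
    have hy := (fa_stabilizer_le_iff L H hp hpd P hP σ hσ y.1).mp y.2
    have e : h.1 * y.1 * σ * (h.1 * y.1)⁻¹ = h.1 * (y.1 * σ * y.1⁻¹) * h.1⁻¹ := by group
    rw [e]
    exact H.mul_mem (H.mul_mem h.2 hy) (H.inv_mem h.2)
  rw [idealCount_def, ← Nat.card_prod]
  refine Nat.card_congr (Equiv.ofBijective
    (fun hq : H × {I : Ideal (𝓞 (IntermediateField.fixedField H)) // Ideal.absNorm I = p} =>
      (⟨hq.1.1 * (s hq.2).1, hstab hq.1 (s hq.2)⟩ :
        {x : L ≃ₐ[ℚ] L // MulAction.stabilizer (L ≃ₐ[ℚ] L) (x • P) ≤ H})) ⟨?_, ?_⟩)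
  · rintro ⟨h, 𝔮⟩ ⟨h', 𝔮'⟩ heq
    have e : h.1 * (s 𝔮).1 = h'.1 * (s 𝔮').1 := congrArg Subtype.val heq
    have h1 : φ ⟨h.1 * (s 𝔮).1, hstab h (s 𝔮)⟩ = φ (s 𝔮) := by
      rw [hfib]
      show h.1 * (s 𝔮).1 * (s 𝔮).1⁻¹ ∈ H
      rw [mul_inv_cancel_right]
      exact h.2
    have h2 : φ ⟨h'.1 * (s 𝔮').1, hstab h' (s 𝔮')⟩ = φ (s 𝔮') := by
      rw [hfib]
      show h'.1 * (s 𝔮').1 * (s 𝔮').1⁻¹ ∈ H
      rw [mul_inv_cancel_right]
      exact h'.2
    have h3 : φ ⟨h.1 * (s 𝔮).1, hstab h (s 𝔮)⟩ = φ ⟨h'.1 * (s 𝔮').1, hstab h' (s 𝔮')⟩ :=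
      congrArg φ heq
    have hq : 𝔮 = 𝔮' := by rw [← hs 𝔮, ← hs 𝔮', ← h1, ← h2, h3]
    subst hq
    have e' : h.1 = h'.1 := mul_right_cancel e
    exact Prod.ext (Subtype.ext e') rfl
  · intro y
    have hy : y.1 * (s (φ y)).1⁻¹ ∈ H := (hfib y (s (φ y))).mp (hs (φ y)).symm
    refine ⟨(⟨y.1 * (s (φ y)).1⁻¹, hy⟩, φ y), Subtype.ext ?_⟩
    show y.1 * (s (φ y)).1⁻¹ * (s (φ y)).1 = y.1
    rw [inv_mul_cancel_right]

end Main

end Fermat.Agent.Frob
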