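/-
FROB-F6 (task 134): a Prelude Frobenius element at `ℓ` raises roots of unity of order prime
to `ℓ` to the `ℓ`-th power.
-/
import Mathlib
import Fermat.Prelude.Def_EllipticCurve_FrobeniusTrace
import Fermat.Prelude.Def_FLTPrelim_Ramification
import Fermat.Agent.Lib.FrobeniusExists

set_option autoImplicit false

namespace Fermat.Agent.Frob

local notation "Qb" => AlgebraicClosure ℚ
local notation "GQ" => (AlgebraicClosure ℚ ≃ₐ[ℚ] AlgebraicClosure ℚ)

section General

variable {K L : Type*} [Field K] [Field L] [Algebra K L]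

/-- Unfolding the Prelude definition: a Frobenius element at `A` satisfies
`σ b ≡ b ^ q` modulo the maximal ideal of `A`, for every `b ∈ A`. -/
theorem cy_isFrobeniusAt_sub_pow_mem {A : ValuationSubring L} {σ : L ≃ₐ[K] L} {q : ℕ}
    (hσ : A.IsFrobeniusAt σ q) {b : L} (hb : b ∈ A) : σ b - b ^ q ∈ A.nonunits := by
  obtain ⟨hmem, h⟩ := hσ
  let g : A.decompositionSubgroup K := ⟨σ, hmem⟩
  let b' : A := ⟨b, hb⟩
  have h1 : IsLocalRing.residue A (g • b') = IsLocalRing.residue A b' ^ q := h (IsLocalRing.residue A b')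
  rw [← map_pow, ← sub_eq_zero, ← map_sub, IsLocalRing.residue_eq_zero_iff,
    ← ValuationSubring.coe_mem_nonunits_iff] at h1
  exact h1

/-- A Frobenius element at `A` maps `A` into itself. -/
theorem cy_isFrobeniusAt_apply_mem {A : ValuationSubring L} {σ : L ≃ₐ[K] L} {q : ℕ}
    (hσ : A.IsFrobeniusAt σ q) {b : L} (hb : b ∈ A) : σ b ∈ A := by
  have h1 := cy_isFrobeniusAt_sub_pow_mem hσ hb
  have h2 : σ b - b ^ q ∈ A := A.nonunits_subset h1
  have h3 : b ^ q ∈ A := A.pow_mem hb q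
  have := A.add_mem _ _ h2 h3
  rwa [sub_add_cancel] at this

end General

section Valuation

variable {L : Type*} [Field L] {Γ₀ : Type*} [LinearOrderedCommGroupWithZero Γ₀]

/-- Two `m`-th roots of unity which are congruent modulo the maximal ideal of a valuation `v`
with `v m = 1` are equal. -/
theorem cy_eq_of_pow_eq_one (v : Valuation L Γ₀) {m : ℕ} (hm : v (m : L) = 1) {ξ η : L}
    (hξ : ξ ^ m = 1) (hη : η ^ m = 1) (h : v (ξ - η) < 1) : ξ = η := by
  have hm0 : m ≠ 0 := by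
    rintro rfl
    simp at hm
  have hη0 : η ≠ 0 := by
    rintro rfl
    rw [zero_pow hm0] at hη
    exact zero_ne_one hη
  have hvη : v η = 1 := by
    have h1 : v η ^ m = 1 := by rw [← map_pow, hη, map_one]
    exact (pow_eq_one_iff_of_nonneg zero_le hm0).mp h1
  by_contra hne
  -- `u := ξ / η` is an `m`-th root of unity different from `1`
  set u : L := ξ / η with hu
  have hum : u ^ m = 1 := by rw [hu, div_pow, hξ, hη, div_one]
  have hu1 : u ≠ 1 := by
    intro h1
    apply hne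
    rw [hu, div_eq_one_iff_eq hη0] at h1
    exact h1
  have hvu : v u = 1 := by
    have h1 : v u ^ m = 1 := by rw [← map_pow, hum, map_one]
    exact (pow_eq_one_iff_of_nonneg zero_le hm0).mp h1
  have hsum : ∑ k ∈ Finset.range m, u ^ k = 0 := by
    have h1 : (∑ k ∈ Finset.range m, u ^ k) * (u - 1) = 0 := by
      rw [geom_sum_mul, hum, sub_self]
    exact (mul_eq_zero.mp h1).resolve_right (sub_ne_zero.mpr hu1)
  -- `m = (1 - u) * c` with `v c ≤ 1`
  have hkey : (m : L) = (1 - u) * ∑ k ∈ Finset.range m, ∑ j ∈ Finset.range k, u ^ j := by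
    have h1 : (m : L) = ∑ k ∈ Finset.range m, (1 - u ^ k) := by
      rw [Finset.sum_sub_distrib, hsum]
      simp
    rw [h1, Finset.mul_sum]
    refine Finset.sum_congr rfl fun k _ => ?_
    have := geom_sum_mul u k
    linear_combination this
  have hvc : v (∑ k ∈ Finset.range m, ∑ j ∈ Finset.range k, u ^ j) ≤ 1 := by
    refine v.map_sum_le fun k _ => ?_
    refine v.map_sum_le fun j _ => ?_
    rw [map_pow, hvu, one_pow]
  have hv1u : v (1 - u) < 1 := by
    have h1 : 1 - u = (η - ξ) / η := by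
      rw [hu]
      field_simp
    rw [h1, map_div₀, hvη, div_one, ← Valuation.map_neg, neg_sub]
    exact h
  have : v (m : L) < 1 := by
    rw [hkey, map_mul]
    exact mul_lt_one_of_lt_of_le hv1u hvc
  rw [hm] at this
  exact lt_irrefl _ this

end Valuation

theorem isFrobeniusAt_apply_of_pow_eq_one {A : ValuationSubring Qb} {σ : GQ} {ℓ : ℕ}
    (hℓ : ℓ.Prime) (hA : A.LiesOverPrime ℓ) (hσ : A.IsFrobeniusAt σ ℓ) {ζ : Qb} {m : ℕ}
    (hζ : ζ ^ m = 1) (hm : ¬ ℓ ∣ m) : σ ζ = ζ ^ ℓ := by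
  have hvℓ : A.valuation (ℓ : Qb) < 1 := A.mem_nonunits_iff.mp hA
  have hm0 : m ≠ 0 := by
    rintro rfl
    exact hm (dvd_zero ℓ)
  have hvm : A.valuation (m : Qb) = 1 := by
    have h := Fermat.Agent.Lib.FrobeniusExists.val_intCast_eq_one A.valuation hℓ hvℓ (n := (m : ℤ))
      (by exact_mod_cast hm)
    simpa using h
  have hζA : ζ ∈ A := by
    rw [← A.valuation_le_one_iff]
    have h1 : A.valuation ζ ^ m = 1 := by rw [← map_pow, hζ, map_one]
    exact ((pow_eq_one_iff_of_nonneg zero_le hm0).mp h1).le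
  have hsub := cy_isFrobeniusAt_sub_pow_mem hσ hζA
  refine cy_eq_of_pow_eq_one A.valuation hvm ?_ ?_ (A.mem_nonunits_iff.mp hsub)
  · rw [← map_pow, hζ, map_one]
  · rw [← pow_mul, mul_comm, pow_mul, hζ, one_pow]

theorem isFrobeniusAt_modEq_one_of_fixes {A : ValuationSubring Qb} {σ : GQ} {ℓ : ℕ}
    (hℓ : ℓ.Prime) (hA : A.LiesOverPrime ℓ) (hσ : A.IsFrobeniusAt σ ℓ) {ζ : Qb} {m : ℕ}
    (hζ : IsPrimitiveRoot ζ m) (hm : ¬ ℓ ∣ m) (hfix : σ ζ = ζ) : ℓ ≡ 1 [MOD m] := by
  have h1 := isFrobeniusAt_apply_of_pow_eq_one hℓ hA hσ hζ.pow_eq_one hm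
  rw [hfix] at h1
  have h2 : ζ ^ ℓ = ζ ^ 1 := by rw [pow_one]; exact h1.symm
  have hm0 : m ≠ 0 := by
    rintro rfl
    exact hm (dvd_zero ℓ)
  have hζ0 : ζ ≠ 0 := hζ.ne_zero hm0
  have h3 : (Units.mk0 ζ hζ0) ^ ℓ = (Units.mk0 ζ hζ0) ^ 1 := by
    ext
    simpa using h2
  have h4 := pow_eq_pow_iff_modEq.mp h3
  have h5 : orderOf (Units.mk0 ζ hζ0) = m := by
    rw [← orderOf_units, Units.val_mk0, ← hζ.eq_orderOf]
  rwa [h5] at h4

end Fermat.Agent.Frob
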