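import Mathlib
import Fermat.Agent.Frob.Defs

/-!
# FROB-M1: the ideal-counting function of a number field is multiplicative

`idealCount K 1 = 1` and `idealCount K (m * n) = idealCount K m * idealCount K n` for coprime
`m`, `n`: an ideal of norm `m * n` factors uniquely as a product of an ideal of norm `m` and an
ideal of norm `n`, namely `𝔞 = (𝔞 ⊔ (m)) * (𝔞 ⊔ (n))`.
-/

set_option autoImplicit false

namespace Fermat.Agent.Frob

open NumberField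

variable (K : Type*) [Field K] [NumberField K]

theorem idealCount_one : idealCount K 1 = 1 := by
  rw [idealCount_def]
  have : Unique {I : Ideal (𝓞 K) // Ideal.absNorm I = 1} :=
    { default := ⟨⊤, Ideal.absNorm_top⟩
      uniq := fun I => Subtype.ext (Ideal.absNorm_eq_one_iff.mp I.2) }
  exact Nat.card_unique

variable {K}

/-- `(m) ⊔ (n) = ⊤` in any commutative ring for coprime naturals `m`, `n`. -/
theorem icm_span_sup_span_eq_top {R : Type*} [CommRing R] {m n : ℕ} (h : m.Coprime n) :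
    Ideal.span {(m : R)} ⊔ Ideal.span {(n : R)} = ⊤ := by
  rw [Ideal.eq_top_iff_one]
  have hb : (m : ℤ) * Nat.gcdA m n + (n : ℤ) * Nat.gcdB m n = 1 := by
    have := Nat.gcd_eq_gcd_ab m n
    rw [h.gcd_eq_one] at this
    exact_mod_cast this.symm
  have hR : (m : R) * (Nat.gcdA m n : R) + (n : R) * (Nat.gcdB m n : R) = 1 := by
    exact_mod_cast congrArg (Int.cast : ℤ → R) hb
  rw [← hR]
  exact Ideal.add_mem _
    (Ideal.mem_sup_left (Ideal.mul_mem_right _ _ (Ideal.mem_span_singleton_self _)))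
    (Ideal.mem_sup_right (Ideal.mul_mem_right _ _ (Ideal.mem_span_singleton_self _)))

/-- If `N I = m`, `N J = n` with `m`, `n` coprime, then `I = I * J ⊔ (m)`. -/
theorem icm_eq_sup_of_mul {m n : ℕ} (h : m.Coprime n) (I J : Ideal (𝓞 K))
    (hI : Ideal.absNorm I = m) (hJ : Ideal.absNorm J = n) :
    I * J ⊔ Ideal.span {(m : 𝓞 K)} = I := by
  have hmI : (m : 𝓞 K) ∈ I := hI ▸ Ideal.absNorm_mem I
  have hnJ : (n : 𝓞 K) ∈ J := hJ ▸ Ideal.absNorm_mem J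
  apply le_antisymm
  · exact sup_le Ideal.mul_le_left ((Ideal.span_singleton_le_iff_mem _).mpr hmI)
  · have htop : J ⊔ Ideal.span {(m : 𝓞 K)} = ⊤ := by
      rw [eq_top_iff, ← icm_span_sup_span_eq_top (R := 𝓞 K) h, sup_comm]
      exact sup_le_sup_right ((Ideal.span_singleton_le_iff_mem _).mpr hnJ) _
    calc I = I * (J ⊔ Ideal.span {(m : 𝓞 K)}) := by rw [htop, Ideal.mul_top]
      _ = I * J ⊔ I * Ideal.span {(m : 𝓞 K)} := Ideal.mul_sup _ _ _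
      _ ≤ I * J ⊔ Ideal.span {(m : 𝓞 K)} := sup_le_sup_left Ideal.mul_le_right _

/-- For an ideal `𝔞` of norm `m * n` (`m`, `n` coprime): `(𝔞 ⊔ (m)) * (𝔞 ⊔ (n)) = 𝔞`. -/
theorem icm_sup_mul_sup {m n : ℕ} (h : m.Coprime n) (𝔞 : Ideal (𝓞 K))
    (h𝔞 : Ideal.absNorm 𝔞 = m * n) :
    (𝔞 ⊔ Ideal.span {(m : 𝓞 K)}) * (𝔞 ⊔ Ideal.span {(n : 𝓞 K)}) = 𝔞 := by
  have hmn : ((m * n : ℕ) : 𝓞 K) ∈ 𝔞 := h𝔞 ▸ Ideal.absNorm_mem 𝔞
  apply le_antisymm
  · rw [Ideal.mul_sup, Ideal.sup_mul, Ideal.sup_mul]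
    refine sup_le (sup_le Ideal.mul_le_left Ideal.mul_le_right) (sup_le Ideal.mul_le_left ?_)
    rw [Ideal.span_singleton_mul_span_singleton, Ideal.span_singleton_le_iff_mem]
    exact_mod_cast hmn
  · have htop := icm_span_sup_span_eq_top (R := 𝓞 K) h
    calc 𝔞 = 𝔞 * (Ideal.span {(m : 𝓞 K)} ⊔ Ideal.span {(n : 𝓞 K)}) := by
          rw [htop, Ideal.mul_top]
      _ = 𝔞 * Ideal.span {(m : 𝓞 K)} ⊔ 𝔞 * Ideal.span {(n : 𝓞 K)} := Ideal.mul_sup _ _ _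
      _ ≤ (𝔞 ⊔ Ideal.span {(m : 𝓞 K)}) * (𝔞 ⊔ Ideal.span {(n : 𝓞 K)}) := by
          refine sup_le ?_ ?_
          · rw [mul_comm]
            exact Ideal.mul_mono le_sup_right le_sup_left
          · exact Ideal.mul_mono le_sup_left le_sup_right

/-- The norm of `𝔞 ⊔ (m)` divides `m` when `N 𝔞 = m * n` with `m`, `n` coprime. -/
theorem icm_absNorm_sup_dvd {m n : ℕ} (h : m.Coprime n) (𝔞 : Ideal (𝓞 K))
    (h𝔞 : Ideal.absNorm 𝔞 = m * n) :
    Ideal.absNorm (𝔞 ⊔ Ideal.span {(m : 𝓞 K)}) ∣ m := by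
  have h1 : Ideal.absNorm (𝔞 ⊔ Ideal.span {(m : 𝓞 K)}) ∣ m * n :=
    h𝔞 ▸ Ideal.absNorm_dvd_absNorm_of_le le_sup_left
  have h2 : Ideal.absNorm (𝔞 ⊔ Ideal.span {(m : 𝓞 K)}) ∣ m ^ Module.finrank ℤ (𝓞 K) := by
    rw [← Ideal.absNorm_span_natCast]
    exact Ideal.absNorm_dvd_absNorm_of_le le_sup_right
  have hcop : (Ideal.absNorm (𝔞 ⊔ Ideal.span {(m : 𝓞 K)})).Coprime n :=
    Nat.Coprime.coprime_dvd_left h2 (Nat.Coprime.pow_left _ h)
  exact hcop.dvd_of_dvd_mul_right h1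

variable (K) in
theorem idealCount_mul {m n : ℕ} (h : m.Coprime n) :
    idealCount K (m * n) = idealCount K m * idealCount K n := by
  rcases Nat.eq_zero_or_pos m with rfl | hm
  · have hn : n = 1 := by simpa using h
    subst hn
    simp [idealCount_one]
  rcases Nat.eq_zero_or_pos n with rfl | hn
  · have hm1 : m = 1 := by simpa using h
    subst hm1
    simp [idealCount_one]
  simp only [idealCount_def]
  rw [← Nat.card_prod]
  symm
  refine Nat.card_congr (Equiv.ofBijective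
    (fun p : {I : Ideal (𝓞 K) // Ideal.absNorm I = m} × {J : Ideal (𝓞 K) // Ideal.absNorm J = n} =>
      (⟨p.1.1 * p.2.1, by rw [map_mul, p.1.2, p.2.2]⟩ :
        {𝔞 : Ideal (𝓞 K) // Ideal.absNorm 𝔞 = m * n})) ⟨?_, ?_⟩)
  · rintro ⟨⟨I, hI⟩, ⟨J, hJ⟩⟩ ⟨⟨I', hI'⟩, ⟨J', hJ'⟩⟩ heq
    have e : I * J = I' * J' := congrArg Subtype.val heq
    have e1 : I = I' := by
      rw [← icm_eq_sup_of_mul h I J hI hJ, ← icm_eq_sup_of_mul h I' J' hI' hJ', e]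
    have e2 : J = J' := by
      rw [← icm_eq_sup_of_mul h.symm J I hJ hI, ← icm_eq_sup_of_mul h.symm J' I' hJ' hI',
        mul_comm J I, mul_comm J' I', e]
    subst e1 e2
    rfl
  · rintro ⟨𝔞, h𝔞⟩
    have hprod := icm_sup_mul_sup h 𝔞 h𝔞
    have h𝔞' : Ideal.absNorm 𝔞 = n * m := by rw [h𝔞, mul_comm]
    have hd1 := icm_absNorm_sup_dvd h 𝔞 h𝔞
    have hd2 := icm_absNorm_sup_dvd h.symm 𝔞 h𝔞'
    have hN : Ideal.absNorm (𝔞 ⊔ Ideal.span {(m : 𝓞 K)}) *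
        Ideal.absNorm (𝔞 ⊔ Ideal.span {(n : 𝓞 K)}) = m * n := by
      rw [← map_mul, hprod, h𝔞]
    have hle1 := Nat.le_of_dvd hm hd1
    have hle2 := Nat.le_of_dvd hn hd2
    have hI : Ideal.absNorm (𝔞 ⊔ Ideal.span {(m : 𝓞 K)}) = m := by
      by_contra hne
      have hlt : Ideal.absNorm (𝔞 ⊔ Ideal.span {(m : 𝓞 K)}) < m := lt_of_le_of_ne hle1 hne
      have : Ideal.absNorm (𝔞 ⊔ Ideal.span {(m : 𝓞 K)}) *
          Ideal.absNorm (𝔞 ⊔ Ideal.span {(n : 𝓞 K)}) < m * n :=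
        Nat.mul_lt_mul_of_lt_of_le hlt hle2 hn
      omega
    have hJ : Ideal.absNorm (𝔞 ⊔ Ideal.span {(n : 𝓞 K)}) = n := by
      rw [hI] at hN
      exact Nat.eq_of_mul_eq_mul_left hm hN
    exact ⟨(⟨𝔞 ⊔ Ideal.span {(m : 𝓞 K)}, hI⟩, ⟨𝔞 ⊔ Ideal.span {(n : 𝓞 K)}, hJ⟩),
      Subtype.ext hprod⟩

end Fermat.Agent.Frob
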