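import Mathlib
import Fermat.Agent.Frob.Defs

/-!
# FROB-M2: bound for the Euler factor of the Dedekind zeta function at a prime `p`

`idealCount_prime_le` : at most `[K : ℚ]` ideals of norm `p`.
`localFactor_le` : `∑_{e < E} idealCount K (p ^ e) x ^ e ≤ (1 - x)⁻¹ ^ idealCount K p * (1 - x²)⁻¹ ^ [K : ℚ]`.
-/

set_option autoImplicit false

namespace Fermat.Agent.Frob

open NumberField UniqueFactorizationMonoid

variable (K : Type*) [Field K] [NumberField K]

open Classical in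
/-- The finite set of primes of `𝓞 K` containing `p`. -/
noncomputable def lf_T (p : ℕ) : Finset (Ideal (𝓞 K)) :=
  (normalizedFactors (Ideal.span {(p : 𝓞 K)})).toFinset

variable {K}

theorem lf_span_ne_bot {p : ℕ} (hp : p.Prime) : Ideal.span {(p : 𝓞 K)} ≠ ⊥ := by
  rw [Ne, Ideal.span_singleton_eq_bot]
  exact_mod_cast hp.ne_zero

theorem lf_mem_T {p : ℕ} (hp : p.Prime) {P : Ideal (𝓞 K)} :
    P ∈ lf_T K p ↔ P.IsPrime ∧ (p : 𝓞 K) ∈ P := by
  classical
  rw [lf_T, Multiset.mem_toFinset, Ideal.mem_normalizedFactors_iff (lf_span_ne_bot hp),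
    Ideal.span_singleton_le_iff_mem]

theorem lf_absNorm_span {p : ℕ} :
    Ideal.absNorm (Ideal.span {(p : 𝓞 K)}) = p ^ Module.finrank ℚ K := by
  rw [Ideal.absNorm_span_singleton]
  have h : ((p : ℕ) : 𝓞 K) = algebraMap ℤ (𝓞 K) (p : ℤ) := by simp
  rw [h, Algebra.norm_algebraMap, RingOfIntegers.rank, Int.natAbs_pow, Int.natAbs_natCast]

theorem lf_exists_f {p : ℕ} (hp : p.Prime) {P : Ideal (𝓞 K)} (hP : P ∈ lf_T K p) :
    ∃ m : ℕ, 1 ≤ m ∧ Ideal.absNorm P = p ^ m := by
  obtain ⟨hprime, hmem⟩ := (lf_mem_T hp).1 hP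
  have hle : Ideal.span {(p : 𝓞 K)} ≤ P := (Ideal.span_singleton_le_iff_mem P).2 hmem
  have hdvd := Ideal.absNorm_dvd_absNorm_of_le hle
  rw [lf_absNorm_span, Nat.dvd_prime_pow hp] at hdvd
  obtain ⟨m, -, hm⟩ := hdvd
  refine ⟨m, ?_, hm⟩
  rcases Nat.eq_zero_or_pos m with h0 | h0
  · exfalso
    rw [h0, pow_zero, Ideal.absNorm_eq_one_iff] at hm
    exact hprime.ne_top hm
  · exact h0

/-- the product of the primes over `p` divides `(p)`; hence at most `[K:ℚ]` of them. -/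
theorem lf_card_T_le {p : ℕ} (hp : p.Prime) : (lf_T K p).card ≤ Module.finrank ℚ K := by
  classical
  have hdvd : ∏ P ∈ lf_T K p, P ∣ Ideal.span {(p : 𝓞 K)} := by
    have h1 : (∏ P ∈ lf_T K p, P) = (normalizedFactors (Ideal.span {(p : 𝓞 K)})).dedup.prod := by
      rw [lf_T, Finset.prod_eq_multiset_prod, Multiset.toFinset_val, Multiset.map_id']
    rw [h1]
    have h2 := Multiset.prod_dvd_prod_of_le
      (Multiset.dedup_le (normalizedFactors (Ideal.span {(p : 𝓞 K)})))
    rwa [Ideal.prod_normalizedFactors_eq_self (lf_span_ne_bot hp)] at h2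
  have hle : Ideal.span {(p : 𝓞 K)} ≤ ∏ P ∈ lf_T K p, P := Ideal.le_of_dvd hdvd
  have hn := Ideal.absNorm_dvd_absNorm_of_le hle
  rw [lf_absNorm_span, map_prod] at hn
  -- each factor is a positive power of p
  have hge : p ^ (lf_T K p).card ∣ ∏ P ∈ lf_T K p, Ideal.absNorm P := by
    rw [← Finset.prod_const]
    apply Finset.prod_dvd_prod_of_dvd
    intro P hP
    obtain ⟨m, hm1, hm⟩ := lf_exists_f hp hP
    rw [hm]
    exact dvd_pow_self p (by omega)
  exact (Nat.pow_dvd_pow_iff_le_right hp.one_lt).1 (hge.trans hn)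

variable (K)

theorem idealCount_prime_le {p : ℕ} (hp : p.Prime) : idealCount K p ≤ Module.finrank ℚ K := by
  classical
  refine le_trans ?_ (lf_card_T_le (K := K) hp)
  rw [idealCount_def, ← Nat.card_eq_finsetCard]
  refine Nat.card_le_card_of_injective
    (fun I : {I : Ideal (𝓞 K) // Ideal.absNorm I = p} => (⟨I.1, ?_⟩ : ↥(lf_T K p))) ?_
  · rw [lf_mem_T hp]
    refine ⟨Ideal.isPrime_of_irreducible_absNorm (by rw [I.2]; exact hp.prime.irreducible), ?_⟩
    have := Ideal.absNorm_mem I.1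
    rwa [I.2] at this
  · intro I J h
    exact Subtype.ext (congrArg (fun x : ↥(lf_T K p) => (x : Ideal (𝓞 K))) h)

variable {K}

/-- the residue degree of a prime over `p` (chosen with `N P = p ^ f`, `f ≥ 1`). -/
noncomputable def lf_f {p : ℕ} (hp : p.Prime) (P : ↥(lf_T K p)) : ℕ :=
  Classical.choose (lf_exists_f hp P.2)

theorem lf_f_pos {p : ℕ} (hp : p.Prime) (P : ↥(lf_T K p)) : 1 ≤ lf_f hp P :=
  (Classical.choose_spec (lf_exists_f hp P.2)).1

theorem lf_f_spec {p : ℕ} (hp : p.Prime) (P : ↥(lf_T K p)) :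
    Ideal.absNorm (P : Ideal (𝓞 K)) = p ^ lf_f hp P :=
  (Classical.choose_spec (lf_exists_f hp P.2)).2

/-- the ideal with prescribed exponents at the primes over `p`. -/
noncomputable def lf_Psi (p : ℕ) (v : ↥(lf_T K p) → ℕ) : Ideal (𝓞 K) :=
  ∏ P : ↥(lf_T K p), (P : Ideal (𝓞 K)) ^ v P

theorem lf_absNorm_Psi {p : ℕ} (hp : p.Prime) (v : ↥(lf_T K p) → ℕ) :
    Ideal.absNorm (lf_Psi p v) = p ^ ∑ P : ↥(lf_T K p), lf_f hp P * v P := by
  rw [lf_Psi, map_prod, ← Finset.prod_pow_eq_pow_sum]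
  refine Finset.prod_congr rfl fun P _ => ?_
  rw [map_pow, lf_f_spec hp P, pow_mul]

theorem lf_exists_Psi {p : ℕ} (hp : p.Prime) {I : Ideal (𝓞 K)} {e : ℕ}
    (hI : Ideal.absNorm I = p ^ e) : ∃ v : ↥(lf_T K p) → ℕ, lf_Psi p v = I := by
  classical
  have hI0 : I ≠ ⊥ := by
    intro h
    rw [h, Ideal.absNorm_bot] at hI
    exact (pow_pos hp.pos e).ne hI
  refine ⟨fun P => Multiset.count (P : Ideal (𝓞 K)) (normalizedFactors I), ?_⟩
  have hsub : (normalizedFactors I).toFinset ⊆ lf_T K p := by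
    intro q hq
    rw [Multiset.mem_toFinset, Ideal.mem_normalizedFactors_iff hI0] at hq
    rw [lf_mem_T hp]
    refine ⟨hq.1, ?_⟩
    have h1 : ((Ideal.absNorm I : ℕ) : 𝓞 K) ∈ q := hq.2 (Ideal.absNorm_mem I)
    rw [hI, Nat.cast_pow] at h1
    exact hq.1.mem_of_pow_mem e h1
  rw [lf_Psi, Finset.prod_coe_sort (lf_T K p)
    (fun q : Ideal (𝓞 K) => q ^ Multiset.count q (normalizedFactors I)),
    ← Finset.prod_subset hsub, ← Finset.prod_multiset_count,
    Ideal.prod_normalizedFactors_eq_self hI0]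
  intro q _ hq
  rw [Multiset.mem_toFinset] at hq
  rw [Multiset.count_eq_zero_of_notMem hq, pow_zero]

/-- the number of ideals of norm `p ^ e` is at most the number of exponent vectors of weight `e`. -/
theorem lf_idealCount_le {p : ℕ} (hp : p.Prime) {e E : ℕ} (he : e < E) :
    idealCount K (p ^ e) ≤
      ((Fintype.piFinset fun _ : ↥(lf_T K p) => Finset.range E).filter
        fun v => ∑ P : ↥(lf_T K p), lf_f hp P * v P = e).card := by
  classical
  rw [idealCount_def, ← Nat.card_eq_finsetCard]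
  have hex : ∀ I : {I : Ideal (𝓞 K) // Ideal.absNorm I = p ^ e},
      ∃ v : ↥(lf_T K p) → ℕ, lf_Psi p v = I.1 := fun I => lf_exists_Psi hp I.2
  choose w hw using hex
  have hwt : ∀ I, ∑ P : ↥(lf_T K p), lf_f hp P * w I P = e := by
    intro I
    have h := lf_absNorm_Psi hp (w I)
    rw [hw I, I.2] at h
    exact (Nat.pow_right_injective hp.two_le h).symm
  refine Nat.card_le_card_of_injective (fun I => (⟨w I, ?_⟩ :
    ↥((Fintype.piFinset fun _ : ↥(lf_T K p) => Finset.range E).filter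
        fun v => ∑ P : ↥(lf_T K p), lf_f hp P * v P = e))) ?_
  · rw [Finset.mem_filter, Fintype.mem_piFinset]
    refine ⟨fun P => ?_, hwt I⟩
    rw [Finset.mem_range]
    have h1 : w I P ≤ lf_f hp P * w I P := Nat.le_mul_of_pos_left _ (lf_f_pos hp P)
    have h2 : lf_f hp P * w I P ≤ ∑ Q : ↥(lf_T K p), lf_f hp Q * w I Q :=
      Finset.single_le_sum (f := fun Q : ↥(lf_T K p) => lf_f hp Q * w I Q)
        (fun _ _ => Nat.zero_le _) (Finset.mem_univ P)
    rw [hwt I] at h2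
    omega
  · intro I J h
    have h' : w I = w J := congrArg Subtype.val h
    apply Subtype.ext
    rw [← hw I, ← hw J, h']

theorem lf_geom_le {y : ℝ} (hy0 : 0 ≤ y) (hy1 : y < 1) (E : ℕ) :
    ∑ j ∈ Finset.range E, y ^ j ≤ (1 - y)⁻¹ := by
  have h := geom_sum_mul_neg y E
  have hpos : 0 < 1 - y := by linarith
  rw [inv_eq_one_div, le_div_iff₀ hpos, h]
  have : 0 ≤ y ^ E := pow_nonneg hy0 E
  linarith

variable (K)

theorem localFactor_le {p : ℕ} (hp : p.Prime) {x : ℝ} (hx0 : 0 ≤ x) (hx1 : x < 1) (E : ℕ) :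
    ∑ e ∈ Finset.range E, (idealCount K (p ^ e) : ℝ) * x ^ e ≤
      ((1 - x)⁻¹) ^ (idealCount K p) * ((1 - x ^ 2)⁻¹) ^ (Module.finrank ℚ K) := by
  classical
  set Pi := Fintype.piFinset fun _ : ↥(lf_T K p) => Finset.range E with hPi
  set wt : (↥(lf_T K p) → ℕ) → ℕ := fun v => ∑ P : ↥(lf_T K p), lf_f hp P * v P with hwt
  -- step 1: termwise bound and exchange of sums
  have h1 : ∑ e ∈ Finset.range E, (idealCount K (p ^ e) : ℝ) * x ^ e ≤
      ∑ v ∈ Pi, x ^ wt v := by
    calc ∑ e ∈ Finset.range E, (idealCount K (p ^ e) : ℝ) * x ^ e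
        ≤ ∑ e ∈ Finset.range E, ∑ v ∈ Pi, (if wt v = e then x ^ wt v else 0) := by
          refine Finset.sum_le_sum fun e he => ?_
          rw [← Finset.sum_filter]
          have hc : ∑ v ∈ Pi with wt v = e, x ^ wt v = ((Pi.filter fun v => wt v = e).card : ℝ) * x ^ e := by
            rw [Finset.sum_congr rfl (fun v hv => by rw [(Finset.mem_filter.1 hv).2] :
              ∀ v ∈ Pi.filter (fun v => wt v = e), x ^ wt v = x ^ e), Finset.sum_const, nsmul_eq_mul]
          rw [hc]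
          refine mul_le_mul_of_nonneg_right ?_ (pow_nonneg hx0 e)
          exact_mod_cast lf_idealCount_le hp (Finset.mem_range.1 he)
      _ = ∑ v ∈ Pi, ∑ e ∈ Finset.range E, (if wt v = e then x ^ wt v else 0) := Finset.sum_comm
      _ ≤ ∑ v ∈ Pi, x ^ wt v := by
          refine Finset.sum_le_sum fun v _ => ?_
          rw [Finset.sum_ite_eq]
          split_ifs
          · exact le_rfl
          · exact pow_nonneg hx0 _
  -- step 2: the sum over exponent vectors is a product of geometric sums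
  have h2 : ∑ v ∈ Pi, x ^ wt v = ∏ P : ↥(lf_T K p), ∑ j ∈ Finset.range E, (x ^ lf_f hp P) ^ j := by
    rw [Finset.prod_univ_sum]
    refine Finset.sum_congr rfl fun v _ => ?_
    rw [hwt, ← Finset.prod_pow_eq_pow_sum]
    exact Finset.prod_congr rfl fun P _ => pow_mul x _ _
  -- step 3: bound each geometric sum
  have hx2 : x ^ 2 < 1 := by nlinarith
  have hx2' : 0 ≤ x ^ 2 := sq_nonneg x
  have hbase1 : 1 ≤ (1 - x)⁻¹ := (one_le_inv₀ (by linarith)).2 (by linarith)
  have hbase2 : 1 ≤ (1 - x ^ 2)⁻¹ := (one_le_inv₀ (by linarith)).2 (by linarith)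
  have h3 : ∏ P : ↥(lf_T K p), ∑ j ∈ Finset.range E, (x ^ lf_f hp P) ^ j ≤
      ∏ P : ↥(lf_T K p), (if lf_f hp P = 1 then (1 - x)⁻¹ else (1 - x ^ 2)⁻¹) := by
    refine Finset.prod_le_prod (fun P _ => Finset.sum_nonneg fun j _ => pow_nonneg (pow_nonneg hx0 _) _)
      fun P _ => ?_
    have hf := lf_f_pos hp P
    have hy0 : 0 ≤ x ^ lf_f hp P := pow_nonneg hx0 _
    split_ifs with h
    · have hy1 : x ^ lf_f hp P < 1 := by rw [h, pow_one]; exact hx1
      have := lf_geom_le hy0 hy1 E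
      rwa [h, pow_one] at this ⊢
    · have hle : x ^ lf_f hp P ≤ x ^ 2 := pow_le_pow_of_le_one hx0 hx1.le (by omega)
      have hy1 : x ^ lf_f hp P < 1 := lt_of_le_of_lt hle hx2
      refine (lf_geom_le hy0 hy1 E).trans ?_
      exact inv_anti₀ (by linarith) (by linarith)
  -- step 4: count the factors
  have h4 : ∏ P : ↥(lf_T K p), (if lf_f hp P = 1 then (1 - x)⁻¹ else (1 - x ^ 2)⁻¹) ≤
      ((1 - x)⁻¹) ^ (idealCount K p) * ((1 - x ^ 2)⁻¹) ^ (Module.finrank ℚ K) := by
    rw [Finset.prod_ite, Finset.prod_const, Finset.prod_const]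
    have hn1 : (Finset.univ.filter fun P : ↥(lf_T K p) => lf_f hp P = 1).card ≤ idealCount K p := by
      rw [idealCount_def, ← Nat.card_eq_finsetCard]
      have : Finite {I : Ideal (𝓞 K) // Ideal.absNorm I = p} :=
        (Ideal.finite_setOfPred_absNorm_eq (S := 𝓞 K) p).to_subtype
      refine Nat.card_le_card_of_injective
        (fun P => (⟨(P.1 : Ideal (𝓞 K)), ?_⟩ : {I : Ideal (𝓞 K) // Ideal.absNorm I = p})) ?_
      · have h := lf_f_spec hp P.1
        rw [(Finset.mem_filter.1 P.2).2, pow_one] at h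
        exact h
      · intro P Q h
        have h' : ((P.1 : ↥(lf_T K p)) : Ideal (𝓞 K)) = ((Q.1 : ↥(lf_T K p)) : Ideal (𝓞 K)) :=
          congrArg (fun I : {I : Ideal (𝓞 K) // Ideal.absNorm I = p} => I.1) h
        exact Subtype.ext (Subtype.ext h')
    have hn2 : (Finset.univ.filter fun P : ↥(lf_T K p) => ¬ lf_f hp P = 1).card ≤
        Module.finrank ℚ K := by
      refine (Finset.card_filter_le _ _).trans ?_
      rw [Finset.card_univ, Fintype.card_coe]
      exact lf_card_T_le hp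
    exact mul_le_mul (pow_le_pow_right₀ hbase1 hn1) (pow_le_pow_right₀ hbase2 hn2)
      (pow_nonneg (by linarith) _) (pow_nonneg (by linarith) _)
  calc ∑ e ∈ Finset.range E, (idealCount K (p ^ e) : ℝ) * x ^ e
      ≤ ∑ v ∈ Pi, x ^ wt v := h1
    _ = ∏ P : ↥(lf_T K p), ∑ j ∈ Finset.range E, (x ^ lf_f hp P) ^ j := h2
    _ ≤ _ := h3
    _ ≤ _ := h4

end Fermat.Agent.Frob
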