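import Mathlib

/-!
# FROB-M3b, abstract core

For an arithmetic function `a : ℕ → ℕ` which is multiplicative on coprime arguments, whose
Dirichlet series `Z(s) = ∑ a(n) n^{-s}` converges for `s > 1` with `(s-1) Z(s)` bounded above and
below on `(1,2]`, and whose local factors satisfy the Euler-factor bound of task FROB-M2, we prove
`∑_p a(p) p^{-s} = log (1/(s-1)) + O(1)` on `(1,2]`.
-/

set_option autoImplicit false

namespace Fermat.Agent.Frob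

open Finset

/-- `y - y² ≤ log (1 + y)` for `0 ≤ y`. -/
theorem ps_log_one_add_ge {y : ℝ} (hy : 0 ≤ y) : y - y ^ 2 ≤ Real.log (1 + y) := by
  have h1 : (0 : ℝ) < 1 + y := by linarith
  have h2 := Real.one_sub_inv_le_log_of_pos h1
  have h3 : y - y ^ 2 ≤ 1 - (1 + y)⁻¹ := by
    rw [show (1 : ℝ) - (1 + y)⁻¹ = y / (1 + y) by field_simp; ring]
    rw [le_div_iff₀ h1]
    nlinarith [pow_nonneg hy 3]
  linarith

/-- `-log (1 - x) ≤ x + 2 x²` for `0 ≤ x ≤ 1/2`. -/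
theorem ps_neg_log_one_sub_le {x : ℝ} (hx0 : 0 ≤ x) (hx : x ≤ 1 / 2) :
    -Real.log (1 - x) ≤ x + 2 * x ^ 2 := by
  have h1 : (0 : ℝ) < 1 - x := by linarith
  have h2 := Real.one_sub_inv_le_log_of_pos h1
  have h3 : (1 - x)⁻¹ - 1 ≤ x + 2 * x ^ 2 := by
    rw [show (1 - x)⁻¹ - 1 = x / (1 - x) by field_simp; ring]
    rw [div_le_iff₀ h1]
    nlinarith [mul_nonneg (mul_nonneg hx0 hx0) (by linarith : (0 : ℝ) ≤ 1 - 2 * x)]
  linarith

/-- `-log (1 - x²) ≤ 2 x²` for `0 ≤ x ≤ 1/2`. -/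
theorem ps_neg_log_one_sub_sq_le {x : ℝ} (hx0 : 0 ≤ x) (hx : x ≤ 1 / 2) :
    -Real.log (1 - x ^ 2) ≤ 2 * x ^ 2 := by
  have hx2 : x ^ 2 ≤ 1 / 4 := by nlinarith
  have h1 : (0 : ℝ) < 1 - x ^ 2 := by linarith
  have h2 := Real.one_sub_inv_le_log_of_pos h1
  have h3 : (1 - x ^ 2)⁻¹ - 1 ≤ 2 * x ^ 2 := by
    rw [show (1 - x ^ 2)⁻¹ - 1 = x ^ 2 / (1 - x ^ 2) by field_simp; ring]
    rw [div_le_iff₀ h1]
    nlinarith [sq_nonneg x]
  linarith

/-- The local estimate: if `1 + A x ≤ E ≤ (1-x)⁻¹ ^ a * (1-x²)⁻¹ ^ d` with `a ≤ d` and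
`0 ≤ x ≤ 1/2`, then `|log E - a x| ≤ (d² + 4 d) x²`. -/
theorem ps_local_log {a d : ℕ} (had : a ≤ d) {x E : ℝ} (hx0 : 0 ≤ x) (hx : x ≤ 1 / 2)
    (hlow : 1 + (a : ℝ) * x ≤ E)
    (hup : E ≤ ((1 - x)⁻¹) ^ a * ((1 - x ^ 2)⁻¹) ^ d) :
    |Real.log E - (a : ℝ) * x| ≤ ((d : ℝ) ^ 2 + 4 * d) * x ^ 2 := by
  have hA0 : (0 : ℝ) ≤ (a : ℝ) := Nat.cast_nonneg a
  have hAd : (a : ℝ) ≤ (d : ℝ) := by exact_mod_cast had
  have hd0 : (0 : ℝ) ≤ (d : ℝ) := Nat.cast_nonneg d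
  have hy : 0 ≤ (a : ℝ) * x := mul_nonneg hA0 hx0
  have hE : 0 < E := by linarith
  have hx2 : x ^ 2 ≤ 1 / 4 := by nlinarith
  have h1x : (0 : ℝ) < 1 - x := by linarith
  have h1x2 : (0 : ℝ) < 1 - x ^ 2 := by linarith
  -- lower bound
  have hL1 : (a : ℝ) * x - ((a : ℝ) * x) ^ 2 ≤ Real.log E :=
    (ps_log_one_add_ge hy).trans (Real.log_le_log (by linarith) hlow)
  have hL2 : ((a : ℝ) * x) ^ 2 ≤ (d : ℝ) ^ 2 * x ^ 2 := by
    rw [mul_pow]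
    exact mul_le_mul_of_nonneg_right (pow_le_pow_left₀ hA0 hAd 2) (sq_nonneg x)
  -- upper bound
  have hU1 : Real.log E ≤ (a : ℝ) * (-Real.log (1 - x)) + (d : ℝ) * (-Real.log (1 - x ^ 2)) := by
    have := Real.log_le_log hE hup
    rw [Real.log_mul (pow_ne_zero _ (inv_ne_zero h1x.ne')) (pow_ne_zero _ (inv_ne_zero h1x2.ne')),
      Real.log_pow, Real.log_pow, Real.log_inv, Real.log_inv] at this
    exact this
  have hU2 := ps_neg_log_one_sub_le hx0 hx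
  have hU3 := ps_neg_log_one_sub_sq_le hx0 hx
  have hU4 : (a : ℝ) * (-Real.log (1 - x)) ≤ (a : ℝ) * (x + 2 * x ^ 2) :=
    mul_le_mul_of_nonneg_left hU2 hA0
  have hU5 : (d : ℝ) * (-Real.log (1 - x ^ 2)) ≤ (d : ℝ) * (2 * x ^ 2) :=
    mul_le_mul_of_nonneg_left hU3 hd0
  have hU6 : (a : ℝ) * (2 * x ^ 2) ≤ (d : ℝ) * (2 * x ^ 2) :=
    mul_le_mul_of_nonneg_right hAd (by positivity)
  rw [abs_le]
  constructor
  · nlinarith [sq_nonneg x, mul_nonneg hd0 (sq_nonneg x)]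
  · nlinarith [sq_nonneg x, mul_nonneg hd0 (sq_nonneg x), mul_nonneg (sq_nonneg (d : ℝ)) (sq_nonneg x)]

/-- For a prime `p` and `1 ≤ s`: `p^{-s} ≤ 1/2` and `(p^{-s})² ≤ p^{-2}`. -/
theorem ps_rpow_bounds {p : ℕ} (hp : p.Prime) {s : ℝ} (hs : 1 ≤ s) :
    0 < (p : ℝ) ^ (-s) ∧ (p : ℝ) ^ (-s) ≤ 1 / 2 ∧ ((p : ℝ) ^ (-s)) ^ 2 ≤ (p : ℝ) ^ (-2 : ℝ) := by
  have hp2 : (2 : ℝ) ≤ (p : ℝ) := by exact_mod_cast hp.two_le
  have hp0 : (0 : ℝ) < (p : ℝ) := by linarith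
  have hp1 : (1 : ℝ) ≤ (p : ℝ) := by linarith
  have h1 : (p : ℝ) ^ (-s) ≤ (p : ℝ) ^ (-1 : ℝ) :=
    Real.rpow_le_rpow_of_exponent_le hp1 (by linarith)
  have h2 : (p : ℝ) ^ (-1 : ℝ) ≤ 1 / 2 := by
    rw [Real.rpow_neg_one, inv_eq_one_div]
    exact one_div_le_one_div_of_le (by norm_num) hp2
  refine ⟨Real.rpow_pos_of_pos hp0 _, h1.trans h2, ?_⟩
  rw [← Real.rpow_natCast, ← Real.rpow_mul hp0.le]
  exact Real.rpow_le_rpow_of_exponent_le hp1 (by push_cast; linarith)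

/-- **Abstract core of FROB-M3b.** -/
theorem ps_core (a : ℕ → ℕ) (d : ℕ)
    (h1 : a 1 = 1)
    (hmul : ∀ {m n : ℕ}, m.Coprime n → a (m * n) = a m * a n)
    (hple : ∀ {p : ℕ}, p.Prime → a p ≤ d)
    (hloc : ∀ {p : ℕ}, p.Prime → ∀ {x : ℝ}, 0 ≤ x → x < 1 → ∀ E : ℕ,
       ∑ e ∈ Finset.range E, (a (p ^ e) : ℝ) * x ^ e ≤
         ((1 - x)⁻¹) ^ (a p) * ((1 - x ^ 2)⁻¹) ^ d)
    (hsum : ∀ {s : ℝ}, 1 < s → Summable (fun n : ℕ => (a n : ℝ) * (n : ℝ) ^ (-s)))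
    (hz : ∃ c₁ c₂ : ℝ, 0 < c₁ ∧ ∀ s : ℝ, 1 < s → s ≤ 2 →
       c₁ ≤ (s - 1) * ∑' n : ℕ, (a n : ℝ) * (n : ℝ) ^ (-s) ∧
       (s - 1) * ∑' n : ℕ, (a n : ℝ) * (n : ℝ) ^ (-s) ≤ c₂) :
    ∃ C : ℝ, ∀ s : ℝ, 1 < s → s ≤ 2 →
      Summable (fun p : Nat.Primes => (a p : ℝ) * (p : ℝ) ^ (-s)) ∧
      |∑' p : Nat.Primes, (a p : ℝ) * (p : ℝ) ^ (-s) - Real.log (1 / (s - 1))| ≤ C := by
  obtain ⟨c₁, c₂, hc₁, hz⟩ := hz
  set D : ℝ := (d : ℝ) ^ 2 + 4 * d with hD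
  have hD0 : 0 ≤ D := by positivity
  have hP2 : Summable (fun p : Nat.Primes => (p : ℝ) ^ (-2 : ℝ)) :=
    Nat.Primes.summable_rpow.mpr (by norm_num)
  refine ⟨D * (∑' p : Nat.Primes, (p : ℝ) ^ (-2 : ℝ)) + max |Real.log c₁| |Real.log c₂|, ?_⟩
  intro s hs1 hs2
  set f : ℕ → ℝ := fun n => (a n : ℝ) * (n : ℝ) ^ (-s) with hf
  have hfnn : ∀ n, 0 ≤ f n := fun n =>
    mul_nonneg (Nat.cast_nonneg _) (Real.rpow_nonneg (Nat.cast_nonneg _) _)
  have hf0 : f 0 = 0 := by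
    simp only [hf, Nat.cast_zero]
    rw [Real.zero_rpow (by linarith : -s ≠ 0), mul_zero]
  have hf1 : f 1 = 1 := by simp [hf, h1]
  have hfmul : ∀ {m n : ℕ}, m.Coprime n → f (m * n) = f m * f n := by
    intro m n hmn
    simp only [hf, hmul hmn, Nat.cast_mul]
    rw [Real.mul_rpow (Nat.cast_nonneg _) (Nat.cast_nonneg _)]
    ring
  have hfsum : Summable f := hsum hs1
  have hnorm : Summable (fun n => ‖f n‖) := by
    simpa [Real.norm_of_nonneg (hfnn _)] using hfsum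
  have hprod := EulerProduct.eulerProduct_hasProd hf1 hfmul hnorm hf0
  set Z : ℝ := ∑' n, f n with hZ
  have hZ1 : 1 ≤ Z := by
    have := hfsum.le_tsum 1 (fun j _ => hfnn j)
    rwa [hf1] at this
  have hZ0 : 0 < Z := by linarith
  -- local factors
  set Ep : Nat.Primes → ℝ := fun p => ∑' e, f ((p : ℕ) ^ e) with hEp
  set x : Nat.Primes → ℝ := fun p => ((p : ℕ) : ℝ) ^ (-s) with hx
  have hfpow : ∀ (p : Nat.Primes) (e : ℕ), f ((p : ℕ) ^ e) = (a ((p : ℕ) ^ e) : ℝ) * x p ^ e := by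
    intro p e
    simp only [hf, hx, Nat.cast_pow]
    rw [Real.rpow_pow_comm (Nat.cast_nonneg _)]
  have hloc' : ∀ p : Nat.Primes, |Real.log (Ep p) - (a p : ℝ) * x p| ≤ D * x p ^ 2 := by
    intro p
    obtain ⟨hx0, hx12, -⟩ := ps_rpow_bounds p.2 hs1.le
    have hsumm : Summable (fun e => f ((p : ℕ) ^ e)) :=
      hfsum.comp_injective (Nat.pow_right_injective p.2.two_le)
    have hlow : 1 + (a p : ℝ) * x p ≤ Ep p := by
      have := hsumm.sum_le_tsum (Finset.range 2) (fun e _ => hfnn _)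
      simp only [Finset.sum_range_succ, Finset.sum_range_zero, pow_zero, pow_one, zero_add,
        hf1] at this
      have hfp : f (p : ℕ) = (a p : ℝ) * x p := rfl
      rw [hfp] at this
      exact this
    have hup : Ep p ≤ ((1 - x p)⁻¹) ^ (a p) * ((1 - x p ^ 2)⁻¹) ^ d := by
      apply Real.tsum_le_of_sum_range_le (fun e => hfnn _)
      intro E
      have := hloc p.2 hx0.le (by linarith : x p < 1) E
      simpa only [hfpow] using this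
    exact ps_local_log (hple p.2) hx0.le hx12 hlow hup
  have hEpos : ∀ p : Nat.Primes, 0 < Ep p := by
    intro p
    obtain ⟨hx0, -, -⟩ := ps_rpow_bounds p.2 hs1.le
    have hsumm : Summable (fun e => f ((p : ℕ) ^ e)) :=
      hfsum.comp_injective (Nat.pow_right_injective p.2.two_le)
    have := hsumm.le_tsum 0 (fun j _ => hfnn _)
    simp only [pow_zero, hf1] at this
    linarith
  -- sum of logs
  have hlogsum : HasSum (fun p => Real.log (Ep p)) (Real.log Z) := by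
    have h := (Real.continuousAt_log hZ0.ne').tendsto.comp hprod
    refine h.congr (fun T => ?_)
    simp only [Function.comp]
    exact Real.log_prod (fun p _ => (hEpos p).ne')
  have hx2 : ∀ p : Nat.Primes, x p ^ 2 ≤ ((p : ℕ) : ℝ) ^ (-2 : ℝ) :=
    fun p => (ps_rpow_bounds p.2 hs1.le).2.2
  have hbd : ∀ p : Nat.Primes, ‖Real.log (Ep p) - (a p : ℝ) * x p‖ ≤
      D * ((p : ℕ) : ℝ) ^ (-2 : ℝ) := fun p => by
    rw [Real.norm_eq_abs]
    exact (hloc' p).trans (mul_le_mul_of_nonneg_left (hx2 p) hD0)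
  have hdiff : Summable (fun p : Nat.Primes => Real.log (Ep p) - (a p : ℝ) * x p) :=
    Summable.of_norm_bounded (hP2.mul_left D) hbd
  have hmain : Summable (fun p : Nat.Primes => (a p : ℝ) * x p) := by
    have := hlogsum.summable.sub hdiff
    simpa using this
  refine ⟨hmain, ?_⟩
  have htsum : ∑' p : Nat.Primes, (a p : ℝ) * x p =
      Real.log Z - ∑' p : Nat.Primes, (Real.log (Ep p) - (a p : ℝ) * x p) := by
    rw [hlogsum.summable.tsum_sub hmain, hlogsum.tsum_eq]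
    ring
  have herr : |∑' p : Nat.Primes, (Real.log (Ep p) - (a p : ℝ) * x p)| ≤
      D * ∑' p : Nat.Primes, ((p : ℕ) : ℝ) ^ (-2 : ℝ) := by
    have := tsum_of_norm_bounded (hP2.mul_left D).hasSum hbd
    rwa [Real.norm_eq_abs, tsum_mul_left] at this
  have hs0 : 0 < s - 1 := by linarith
  obtain ⟨hzl, hzu⟩ := hz s hs1 hs2
  have hlogZ : |Real.log Z - Real.log (1 / (s - 1))| ≤ max |Real.log c₁| |Real.log c₂| := by
    have e : Real.log Z - Real.log (1 / (s - 1)) = Real.log ((s - 1) * Z) := by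
      rw [one_div, Real.log_inv, Real.log_mul hs0.ne' hZ0.ne']
      ring
    rw [e]
    exact abs_le_max_abs_abs (Real.log_le_log hc₁ hzl)
      (Real.log_le_log (mul_pos hs0 hZ0) hzu)
  rw [htsum]
  have e2 : Real.log Z - ∑' p : Nat.Primes, (Real.log (Ep p) - (a p : ℝ) * x p) -
      Real.log (1 / (s - 1)) = (Real.log Z - Real.log (1 / (s - 1))) -
        ∑' p : Nat.Primes, (Real.log (Ep p) - (a p : ℝ) * x p) := by ring
  rw [e2]
  calc |(Real.log Z - Real.log (1 / (s - 1))) -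
        ∑' p : Nat.Primes, (Real.log (Ep p) - (a p : ℝ) * x p)|
      ≤ |Real.log Z - Real.log (1 / (s - 1))| +
        |∑' p : Nat.Primes, (Real.log (Ep p) - (a p : ℝ) * x p)| := abs_sub _ _
    _ ≤ max |Real.log c₁| |Real.log c₂| + D * ∑' p : Nat.Primes, ((p : ℕ) : ℝ) ^ (-2 : ℝ) :=
        add_le_add hlogZ herr
    _ = _ := by ring

end Fermat.Agent.Frob
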