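import Mathlib
import Fermat.Prelude.Def_GaloisRep_Adic
import Fermat.Prelude.Def_EllipticCurve_FrobeniusTrace
import Fermat.Prelude.Def_FLTPrelim_Ramification

/-!
# FROB-F5: rigidity of characteristic polynomials

Two adic Galois representations (free of rank `2` over a local ring `R` with
`⋂ 𝔪^n = 0`) whose Frobenius elements outside a finite set `S` have equal characteristic
polynomials have equal characteristic polynomials at every element of the Galois group.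

The input from the Frobenius density theorem (task FROB-FINAL, `exists_frobenius_generating`) is
taken as an explicit hypothesis `FrobGen` in `charpoly_eq_of_frobenius_of`, so that this file does
not depend on the density theorem being landed.
-/

set_option autoImplicit false

namespace Fermat.Agent.Frob

open Polynomial Matrix

local notation "Qb" => AlgebraicClosure ℚ
local notation "GQ" => (AlgebraicClosure ℚ ≃ₐ[ℚ] AlgebraicClosure ℚ)

/-- The statement of the Frobenius density theorem in its existence form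
(`exists_frobenius_generating` of `Frob/Main.lean`). -/
def FrobGen : Prop :=
  ∀ (F : IntermediateField ℚ Qb) [FiniteDimensional ℚ F] (S : Finset ℕ) (g : GQ),
    ∃ ℓ : ℕ, ℓ.Prime ∧ ℓ ∉ S ∧ ∃ (A : ValuationSubring Qb) (σ : GQ) (k j : ℕ),
      A.LiesOverPrime ℓ ∧ A.IsFrobeniusAt σ ℓ ∧ (∀ x ∈ F, g x = (σ ^ k) x) ∧
        (∀ x ∈ F, σ x = (g ^ j) x)

/-! ### `2 × 2` matrices -/

section TwoByTwo

variable {R : Type*} [CommRing R]

theorem rg_trace_det_of_charpoly_eq [Nontrivial R] {A B : Matrix (Fin 2) (Fin 2) R}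
    (h : A.charpoly = B.charpoly) : A.trace = B.trace ∧ A.det = B.det := by
  constructor
  · rw [Matrix.trace_eq_neg_charpoly_coeff, Matrix.trace_eq_neg_charpoly_coeff, h]
  · rw [Matrix.det_eq_sign_charpoly_coeff, Matrix.det_eq_sign_charpoly_coeff, h]

/-- Cayley–Hamilton for `2 × 2` matrices. -/
theorem rg_sq_eq (A : Matrix (Fin 2) (Fin 2) R) : A ^ 2 = A.trace • A - A.det • (1 : Matrix _ _ R) := by
  ext i j
  fin_cases i <;> fin_cases j <;>
    simp [pow_two, Matrix.mul_apply, Fin.sum_univ_two, Matrix.trace_fin_two, Matrix.det_fin_two] <;>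
    ring

theorem rg_trace_pow_add_two (A : Matrix (Fin 2) (Fin 2) R) (k : ℕ) :
    (A ^ (k + 2)).trace = A.trace * (A ^ (k + 1)).trace - A.det * (A ^ k).trace := by
  have h1 : A ^ (k + 2) = A.trace • A ^ (k + 1) - A.det • A ^ k := by
    rw [pow_add, rg_sq_eq, mul_sub, Matrix.mul_smul, Matrix.mul_smul, mul_one, ← pow_succ]
  rw [h1, Matrix.trace_sub, Matrix.trace_smul, Matrix.trace_smul, smul_eq_mul, smul_eq_mul]

theorem rg_trace_pow_eq {A B : Matrix (Fin 2) (Fin 2) R} (ht : A.trace = B.trace)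
    (hd : A.det = B.det) (k : ℕ) : (A ^ k).trace = (B ^ k).trace := by
  induction k using Nat.strong_induction_on with
  | _ k ih =>
    match k with
    | 0 => simp
    | 1 => simpa using ht
    | (k + 2) =>
      rw [rg_trace_pow_add_two, rg_trace_pow_add_two, ht, hd, ih (k + 1) (by omega),
        ih k (by omega)]

theorem rg_charpoly_pow_eq {A B : Matrix (Fin 2) (Fin 2) R} (h : A.charpoly = B.charpoly)
    (k : ℕ) : (A ^ k).charpoly = (B ^ k).charpoly := by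
  rcases subsingleton_or_nontrivial R with hs | hn
  · exact Subsingleton.elim _ _
  · obtain ⟨ht, hd⟩ := rg_trace_det_of_charpoly_eq h
    rw [Matrix.charpoly_fin_two, Matrix.charpoly_fin_two, rg_trace_pow_eq ht hd k,
      Matrix.det_pow, Matrix.det_pow, hd]

/-- The matrix form of the rigidity argument. -/
theorem rg_matrix_core (I : Ideal R) (M₁ M₂ H₁ H₂ : Matrix (Fin 2) (Fin 2) R) (k : ℕ)
    (hM : M₁.charpoly = M₂.charpoly)
    (hH₁ : ∀ i j, (H₁ - 1) i j ∈ I) (hH₂ : ∀ i j, (H₂ - 1) i j ∈ I) (m : ℕ) :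
    ((M₁ ^ k * H₁).charpoly - (M₂ ^ k * H₂).charpoly).coeff m ∈ I := by
  set φ := Ideal.Quotient.mk I with hφ
  have hone : ∀ H : Matrix (Fin 2) (Fin 2) R, (∀ i j, (H - 1) i j ∈ I) → φ.mapMatrix H = 1 := by
    intro H hH
    ext i j
    have h1 := hH i j
    rw [Matrix.sub_apply] at h1
    have h2 : φ (H i j) = φ ((1 : Matrix (Fin 2) (Fin 2) R) i j) :=
      Ideal.Quotient.eq.mpr h1
    rw [RingHom.mapMatrix_apply, Matrix.map_apply, h2]
    by_cases hij : i = j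
    · subst hij; simp
    · simp [Matrix.one_apply_ne hij]
  have hmapM : (φ.mapMatrix M₁).charpoly = (φ.mapMatrix M₂).charpoly := by
    rw [RingHom.mapMatrix_apply, RingHom.mapMatrix_apply, Matrix.charpoly_map,
      Matrix.charpoly_map, hM]
  have key : ∀ (M H : Matrix (Fin 2) (Fin 2) R), (∀ i j, (H - 1) i j ∈ I) →
      (M ^ k * H).charpoly.map φ = ((φ.mapMatrix M) ^ k).charpoly := by
    intro M H hH
    rw [← Matrix.charpoly_map, ← RingHom.mapMatrix_apply, map_mul, map_pow, hone H hH, mul_one]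
  have h3 : ((M₁ ^ k * H₁).charpoly - (M₂ ^ k * H₂).charpoly).map φ = 0 := by
    rw [Polynomial.map_sub, key M₁ H₁ hH₁, key M₂ H₂ hH₂, rg_charpoly_pow_eq hmapM k, sub_self]
  have h4 := congrArg (fun p : Polynomial (R ⧸ I) => p.coeff m) h3
  simp only [Polynomial.coeff_map, Polynomial.coeff_zero] at h4
  exact Ideal.Quotient.eq_zero_iff_mem.mp h4

end TwoByTwo

/-! ### modules -/

section Mod

variable {R : Type*} [CommRing R] {V : Type*} [AddCommGroup V] [Module R V]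

theorem rg_repr_mem {ι : Type*} (b : Module.Basis ι R V) (I : Ideal R) {w : V}
    (hw : w ∈ I • (⊤ : Submodule R V)) (i : ι) : b.repr w i ∈ I := by
  refine Submodule.smul_induction_on (p := fun w => b.repr w i ∈ I) hw ?_ ?_
  · intro a ha v _
    rw [map_smul, Finsupp.smul_apply, smul_eq_mul]
    exact I.mul_mem_right _ ha
  · intro x y hx hy
    rw [map_add, Finsupp.add_apply]
    exact I.add_mem hx hy

theorem rg_toMatrix_sub_one_mem {ι : Type*} [Fintype ι] [DecidableEq ι] (b : Module.Basis ι R V)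
    (I : Ideal R) (f : Module.End R V) (hf : ∀ v, f v - v ∈ I • (⊤ : Submodule R V)) (i j : ι) :
    (LinearMap.toMatrix b b f - 1) i j ∈ I := by
  have h1 : (LinearMap.toMatrix b b f - 1) i j = b.repr (f (b j) - b j) i := by
    rw [Matrix.sub_apply, LinearMap.toMatrix_apply, map_sub, Finsupp.sub_apply,
      Module.Basis.repr_self, Matrix.one_apply, Finsupp.single_apply]
    by_cases hij : i = j
    · subst hij; simp
    · simp [hij, Ne.symm hij]
  rw [h1]
  exact rg_repr_mem b I (hf (b j)) i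

end Mod

/-! ### the rigidity theorem -/

/-- **Rigidity**, conditional on the Frobenius density theorem `FrobGen`. -/
theorem charpoly_eq_of_frobenius_of (hmain : FrobGen) {R : Type} [CommRing R] [IsLocalRing R]
    (hR : ⨅ n : ℕ, IsLocalRing.maximalIdeal R ^ n = ⊥) (ρ₁ ρ₂ : GaloisRepAdic R) (S : Finset ℕ)
    (h : ∀ ℓ : ℕ, ℓ.Prime → ℓ ∉ S → ∀ A : ValuationSubring Qb, A.LiesOverPrime ℓ →
      ∀ σ : GQ, A.IsFrobeniusAt σ ℓ →
        LinearMap.charpoly (ρ₁.ρ σ) = LinearMap.charpoly (ρ₂.ρ σ)) (g : GQ) :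
    LinearMap.charpoly (ρ₁.ρ g) = LinearMap.charpoly (ρ₂.ρ g) := by
  classical
  let b₁ : Module.Basis (Fin 2) R ρ₁.V := Module.finBasisOfFinrankEq R ρ₁.V ρ₁.finrank_eq
  let b₂ : Module.Basis (Fin 2) R ρ₂.V := Module.finBasisOfFinrankEq R ρ₂.V ρ₂.finrank_eq
  have hcoeff : ∀ (n m : ℕ), (LinearMap.charpoly (ρ₁.ρ g) - LinearMap.charpoly (ρ₂.ρ g)).coeff m ∈
      IsLocalRing.maximalIdeal R ^ n := by
    intro n m
    obtain ⟨L₁, hL₁, hc₁⟩ := ρ₁.isAdicContinuous n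
    obtain ⟨L₂, hL₂, hc₂⟩ := ρ₂.isAdicContinuous n
    have : FiniteDimensional ℚ (L₁ ⊔ L₂ : IntermediateField ℚ Qb) :=
      IntermediateField.finiteDimensional_sup L₁ L₂
    obtain ⟨ℓ, hℓ, hℓS, A, σ, k, j, hA, hσ, hgk, -⟩ := hmain (L₁ ⊔ L₂) S g
    set h₀ : GQ := (σ ^ k)⁻¹ * g with hh₀
    have hfix : ∀ x ∈ (L₁ ⊔ L₂ : IntermediateField ℚ Qb), h₀ x = x := by
      intro x hx
      rw [hh₀, AlgEquiv.mul_apply, hgk x hx]
      exact (σ ^ k).symm_apply_apply x
    have hg : g = σ ^ k * h₀ := by rw [hh₀]; group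
    have hρ : ∀ ρ : GaloisRepAdic R, ρ.ρ g = (ρ.ρ σ) ^ k * ρ.ρ h₀ := by
      intro ρ
      conv_lhs => rw [hg]
      rw [map_mul, map_pow]
    have hmat : ∀ (ρ : GaloisRepAdic R) (b : Module.Basis (Fin 2) R ρ.V),
        LinearMap.charpoly (ρ.ρ g) =
          ((LinearMap.toMatrix b b (ρ.ρ σ)) ^ k * LinearMap.toMatrix b b (ρ.ρ h₀)).charpoly := by
      intro ρ b
      rw [← LinearMap.charpoly_toMatrix (ρ.ρ g) b, hρ ρ, LinearMap.toMatrix_mul,
        LinearMap.toMatrix_pow]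
    rw [hmat ρ₁ b₁, hmat ρ₂ b₂]
    apply rg_matrix_core
    · rw [LinearMap.charpoly_toMatrix, LinearMap.charpoly_toMatrix]
      exact h ℓ hℓ hℓS A hA σ hσ
    · exact rg_toMatrix_sub_one_mem b₁ _ _
        (hc₁ h₀ (fun x hx => hfix x ((le_sup_left : L₁ ≤ L₁ ⊔ L₂) hx)))
    · exact rg_toMatrix_sub_one_mem b₂ _ _
        (hc₂ h₀ (fun x hx => hfix x ((le_sup_right : L₂ ≤ L₁ ⊔ L₂) hx)))
  have hzero : LinearMap.charpoly (ρ₁.ρ g) - LinearMap.charpoly (ρ₂.ρ g) = 0 := by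
    ext m
    rw [Polynomial.coeff_zero]
    have hm : (LinearMap.charpoly (ρ₁.ρ g) - LinearMap.charpoly (ρ₂.ρ g)).coeff m ∈
        ⨅ n : ℕ, IsLocalRing.maximalIdeal R ^ n := by
      rw [Ideal.mem_iInf]
      exact fun n => hcoeff n m
    rw [hR] at hm
    exact hm
  exact sub_eq_zero.mp hzero

/-! ### trace / determinant forms -/

section TraceDet

variable {R : Type*} [CommRing R] [Nontrivial R]
  {V₁ : Type*} [AddCommGroup V₁] [Module R V₁] {V₂ : Type*} [AddCommGroup V₂] [Module R V₂]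

/-- For endomorphisms of free modules of rank `2`: equal characteristic polynomials iff equal
traces and determinants. -/
theorem rg_charpoly_eq_iff (b₁ : Module.Basis (Fin 2) R V₁) (b₂ : Module.Basis (Fin 2) R V₂)
    (f₁ : Module.End R V₁) (f₂ : Module.End R V₂) :
    haveI := Module.Free.of_basis b₁
    haveI := Module.Free.of_basis b₂
    haveI := Module.Finite.of_basis b₁
    haveI := Module.Finite.of_basis b₂
    LinearMap.charpoly f₁ = LinearMap.charpoly f₂ ↔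
      LinearMap.trace R V₁ f₁ = LinearMap.trace R V₂ f₂ ∧ LinearMap.det f₁ = LinearMap.det f₂ := by
  have := Module.Free.of_basis b₁
  have := Module.Free.of_basis b₂
  have := Module.Finite.of_basis b₁
  have := Module.Finite.of_basis b₂
  rw [← LinearMap.charpoly_toMatrix f₁ b₁, ← LinearMap.charpoly_toMatrix f₂ b₂,
    LinearMap.trace_eq_matrix_trace R b₁ f₁, LinearMap.trace_eq_matrix_trace R b₂ f₂,
    ← LinearMap.det_toMatrix b₁ f₁, ← LinearMap.det_toMatrix b₂ f₂]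
  constructor
  · exact rg_trace_det_of_charpoly_eq
  · rintro ⟨ht, hd⟩
    rw [Matrix.charpoly_fin_two, Matrix.charpoly_fin_two, ht, hd]

end TraceDet

section Cor

variable {R : Type} [CommRing R] [IsLocalRing R]

theorem rg_charpoly_eq_iff_rep (ρ₁ ρ₂ : GaloisRepAdic R) (g₁ g₂ : GQ) :
    LinearMap.charpoly (ρ₁.ρ g₁) = LinearMap.charpoly (ρ₂.ρ g₂) ↔
      LinearMap.trace R ρ₁.V (ρ₁.ρ g₁) = LinearMap.trace R ρ₂.V (ρ₂.ρ g₂) ∧
        LinearMap.det (ρ₁.ρ g₁) = LinearMap.det (ρ₂.ρ g₂) := by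
  have key := rg_charpoly_eq_iff (Module.finBasisOfFinrankEq R ρ₁.V ρ₁.finrank_eq)
    (Module.finBasisOfFinrankEq R ρ₂.V ρ₂.finrank_eq) (ρ₁.ρ g₁) (ρ₂.ρ g₂)
  convert key using 2

/-- Rigidity, hypothesis on traces and determinants of Frobenius elements. -/
theorem charpoly_eq_of_frobenius_trace_det_of (hmain : FrobGen)
    (hR : ⨅ n : ℕ, IsLocalRing.maximalIdeal R ^ n = ⊥) (ρ₁ ρ₂ : GaloisRepAdic R) (S : Finset ℕ)
    (h : ∀ ℓ : ℕ, ℓ.Prime → ℓ ∉ S → ∀ A : ValuationSubring Qb, A.LiesOverPrime ℓ →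
      ∀ σ : GQ, A.IsFrobeniusAt σ ℓ →
        LinearMap.trace R ρ₁.V (ρ₁.ρ σ) = LinearMap.trace R ρ₂.V (ρ₂.ρ σ) ∧
          LinearMap.det (ρ₁.ρ σ) = LinearMap.det (ρ₂.ρ σ)) (g : GQ) :
    LinearMap.charpoly (ρ₁.ρ g) = LinearMap.charpoly (ρ₂.ρ g) :=
  charpoly_eq_of_frobenius_of hmain hR ρ₁ ρ₂ S
    (fun ℓ hℓ hℓS A hA σ hσ => (rg_charpoly_eq_iff_rep ρ₁ ρ₂ σ σ).mpr (h ℓ hℓ hℓS A hA σ hσ)) g

theorem trace_eq_of_frobenius_of (hmain : FrobGen)
    (hR : ⨅ n : ℕ, IsLocalRing.maximalIdeal R ^ n = ⊥) (ρ₁ ρ₂ : GaloisRepAdic R) (S : Finset ℕ)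
    (h : ∀ ℓ : ℕ, ℓ.Prime → ℓ ∉ S → ∀ A : ValuationSubring Qb, A.LiesOverPrime ℓ →
      ∀ σ : GQ, A.IsFrobeniusAt σ ℓ →
        LinearMap.charpoly (ρ₁.ρ σ) = LinearMap.charpoly (ρ₂.ρ σ)) (g : GQ) :
    LinearMap.trace R ρ₁.V (ρ₁.ρ g) = LinearMap.trace R ρ₂.V (ρ₂.ρ g) :=
  ((rg_charpoly_eq_iff_rep ρ₁ ρ₂ g g).mp (charpoly_eq_of_frobenius_of hmain hR ρ₁ ρ₂ S h g)).1

theorem det_eq_of_frobenius_of (hmain : FrobGen)
    (hR : ⨅ n : ℕ, IsLocalRing.maximalIdeal R ^ n = ⊥) (ρ₁ ρ₂ : GaloisRepAdic R) (S : Finset ℕ)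
    (h : ∀ ℓ : ℕ, ℓ.Prime → ℓ ∉ S → ∀ A : ValuationSubring Qb, A.LiesOverPrime ℓ →
      ∀ σ : GQ, A.IsFrobeniusAt σ ℓ →
        LinearMap.charpoly (ρ₁.ρ σ) = LinearMap.charpoly (ρ₂.ρ σ)) (g : GQ) :
    LinearMap.det (ρ₁.ρ g) = LinearMap.det (ρ₂.ρ g) :=
  ((rg_charpoly_eq_iff_rep ρ₁ ρ₂ g g).mp (charpoly_eq_of_frobenius_of hmain hR ρ₁ ρ₂ S h g)).2

end Cor

end Fermat.Agent.Frob
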