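import Mathlib
import Fermat.Prelude.Def_GaloisRep_Adic
import Fermat.Agent.S53.Burnside

/-!
# FROB consumer brick: the trace form detects endomorphisms (residually absolutely irreducible case)

For `ρ : GaloisRepAdic A` over a local ring `A` with absolutely irreducible residual
representation:

* `tk_span_range_eq_top` (TK1): the operators `ρ.ρ σ` span `End_A(V)` over `A` (Burnside +
  Nakayama);
* `tk_eq_zero_of_trace_mul_eq_zero` (TK2): an endomorphism `x` with `tr (x * ρ σ) = 0` for all `σ`
  is zero;
* `tk_eq_one_of_trace_mul_eq` (TK3): if `tr ρ(τ σ) = tr ρ(σ)` for all `σ` then `ρ τ = 1`.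
-/

set_option autoImplicit false

namespace Fermat.Agent.Frob

open IsLocalRing

local notation "GQ" => (AlgebraicClosure ℚ ≃ₐ[ℚ] AlgebraicClosure ℚ)

variable {A : Type} [CommRing A] [IsLocalRing A]

omit [IsLocalRing A] in
/-- A matrix all of whose entries lie in an ideal `I` lies in `I • ⊤`. -/
theorem tk_mem_smul_top_of_entries {n : Type*} [Fintype n] [DecidableEq n] (I : Ideal A)
    (M : Matrix n n A) (hM : ∀ i j, M i j ∈ I) :
    M ∈ I • (⊤ : Submodule A (Matrix n n A)) := by
  rw [Matrix.matrix_eq_sum_single M]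
  refine Submodule.sum_mem _ fun i _ => Submodule.sum_mem _ fun j _ => ?_
  have h : Matrix.single i j (M i j) = M i j • Matrix.single i j (1 : A) := by
    rw [Matrix.smul_single, smul_eq_mul, mul_one]
  rw [h]
  exact Submodule.smul_mem_smul (hM i j) Submodule.mem_top

/-- TK1, matrix form: the matrices of `ρ.ρ σ` span `M₂(A)`. -/
theorem tk_span_toMatrix_eq_top (ρ : GaloisRepAdic A)
    (h : ρ.residual.IsAbsolutelyIrreducible) (b : Module.Basis (Fin 2) A ρ.V) :
    Submodule.span A (Set.range fun σ : GQ => LinearMap.toMatrix b b (ρ.ρ σ)) = ⊤ := by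
  classical
  let k := ResidueField A
  let bk : Module.Basis (Fin 2) k (TensorProduct A k ρ.V) := Algebra.TensorProduct.basis k b
  have hres : Submodule.span k (Set.range fun σ : GQ =>
      (LinearMap.toMatrix b b (ρ.ρ σ)).map (algebraMap A k)) = ⊤ := by
    have h0 := Fermat.Agent.S53.span_range_toMatrix_eq_top_of_absIrr ρ.residual h bk
    rw [← h0]
    congr 1
    ext M
    constructor
    · rintro ⟨σ, rfl⟩
      exact ⟨σ, LinearMap.toMatrix_baseChange k (ρ.ρ σ) b b⟩
    · rintro ⟨σ, rfl⟩
      exact ⟨σ, (LinearMap.toMatrix_baseChange k (ρ.ρ σ) b b).symm⟩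
  have hsurj : Function.Surjective (algebraMap A k) := IsLocalRing.residue_surjective
  rw [eq_top_iff]
  refine Submodule.le_of_le_smul_of_le_jacobson_bot (I := maximalIdeal A)
    (Module.finite_def.mp inferInstance) (IsLocalRing.maximalIdeal_le_jacobson ⊥) ?_
  intro M _
  obtain ⟨c, hc⟩ := Fermat.Agent.S53.exists_finsupp_sum_eq_of_span_eq_top (algebraMap A k) hsurj
    (fun σ : GQ => (LinearMap.toMatrix b b (ρ.ρ σ)).map (algebraMap A k)) hres
    (M.map (algebraMap A k))
  set M0 : Matrix (Fin 2) (Fin 2) A := c.sum fun g a => a • LinearMap.toMatrix b b (ρ.ρ g)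
    with hM0
  have hM0mem : M0 ∈ Submodule.span A (Set.range fun σ : GQ => LinearMap.toMatrix b b (ρ.ρ σ)) :=
    Submodule.sum_mem _ fun g _ => Submodule.smul_mem _ _ (Submodule.subset_span ⟨g, rfl⟩)
  have hmap : M0.map (algebraMap A k) = M.map (algebraMap A k) := by
    rw [← hc, hM0]
    ext i j
    simp only [Finsupp.sum, Matrix.sum_apply, Matrix.map_apply, Matrix.smul_apply, smul_eq_mul,
      map_sum, map_mul]
  have hdiff : M - M0 ∈ maximalIdeal A • (⊤ : Submodule A (Matrix (Fin 2) (Fin 2) A)) := by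
    apply tk_mem_smul_top_of_entries
    intro i j
    have h1 : algebraMap A k ((M - M0) i j) = 0 := by
      have h2 := congrFun (congrFun hmap i) j
      simp only [Matrix.map_apply] at h2
      rw [Matrix.sub_apply, map_sub, h2, sub_self]
    exact (IsLocalRing.residue_eq_zero_iff _).mp h1
  have : M = M0 + (M - M0) := by abel
  rw [this]
  exact Submodule.add_mem_sup hM0mem hdiff

/-- TK1: the operators `ρ.ρ σ` span `End_A(V)`. -/
theorem tk_span_range_eq_top (ρ : GaloisRepAdic A) (h : ρ.residual.IsAbsolutelyIrreducible) :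
    Submodule.span A (Set.range ρ.ρ) = (⊤ : Submodule A (Module.End A ρ.V)) := by
  classical
  let b : Module.Basis (Fin 2) A ρ.V := Module.finBasisOfFinrankEq A ρ.V ρ.finrank_eq
  have h1 := tk_span_toMatrix_eq_top ρ h b
  have h2 := Fermat.Agent.S53.span_range_equiv_eq_top (LinearMap.toMatrix b b).symm _ h1
  simpa using h2

/-- TK2: the trace form against the image of `ρ` detects zero. -/
theorem tk_eq_zero_of_trace_mul_eq_zero (ρ : GaloisRepAdic A)
    (h : ρ.residual.IsAbsolutelyIrreducible) (x : Module.End A ρ.V)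
    (hx : ∀ σ : GQ, LinearMap.trace A ρ.V (x * ρ.ρ σ) = 0) : x = 0 := by
  classical
  let b : Module.Basis (Fin 2) A ρ.V := Module.finBasisOfFinrankEq A ρ.V ρ.finrank_eq
  -- the trace form vanishes against everything
  have hall : ∀ y : Module.End A ρ.V, LinearMap.trace A ρ.V (x * y) = 0 := by
    intro y
    have hy : y ∈ Submodule.span A (Set.range ρ.ρ) := by
      rw [tk_span_range_eq_top ρ h]; trivial
    refine Submodule.span_induction (p := fun y _ => LinearMap.trace A ρ.V (x * y) = 0)
      ?_ ?_ ?_ ?_ hy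
    · rintro _ ⟨σ, rfl⟩
      exact hx σ
    · rw [mul_zero, map_zero]
    · intro y z _ _ hy hz
      rw [mul_add, map_add, hy, hz, add_zero]
    · intro a y _ hy
      rw [mul_smul_comm, map_smul, hy, smul_zero]
  have hX : LinearMap.toMatrix b b x = 0 := by
    rw [Matrix.ext_iff_trace_mul_right]
    intro Y
    have h1 := hall ((LinearMap.toMatrix b b).symm Y)
    rw [LinearMap.trace_eq_matrix_trace A b, LinearMap.toMatrix_mul,
      LinearEquiv.apply_symm_apply] at h1
    rw [h1, zero_mul, Matrix.trace_zero]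
  exact (LinearMap.toMatrix b b).injective (by rw [hX, map_zero])

/-- TK3: an element `τ` whose translation does not change traces acts trivially. -/
theorem tk_eq_one_of_trace_mul_eq (ρ : GaloisRepAdic A)
    (h : ρ.residual.IsAbsolutelyIrreducible) (τ : GQ)
    (hτ : ∀ σ : GQ, ρ.trace (τ * σ) = ρ.trace σ) : ρ.ρ τ = 1 := by
  have h0 : ρ.ρ τ - 1 = 0 := by
    apply tk_eq_zero_of_trace_mul_eq_zero ρ h
    intro σ
    have h1 := hτ σ
    unfold GaloisRepAdic.trace at h1
    rw [map_mul] at h1
    rw [sub_mul, one_mul, map_sub, h1, sub_self]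
  exact sub_eq_zero.mp h0

end Fermat.Agent.Frob
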