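import Mathlib
import Fermat.Agent.Frob.Defs

/-!
# FROB-M3a: the real Dedekind zeta function

Summability of `∑ idealCount K n * n ^ (-s)` for real `s > 1`, and two-sided bounds for
`(s - 1) * ζ_K(s)` on `(1, 2]` (from the analytic class number formula in Mathlib).
-/

set_option autoImplicit false

open Filter Topology NumberField

namespace Fermat.Agent.Frob

variable (K : Type*) [Field K] [NumberField K]

/-- Asymptotics of the partial sums of `idealCount` (the input of the class number formula). -/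
theorem zb_tendsto_sum_div :
    Tendsto (fun n : ℕ => (∑ k ∈ Finset.Icc 1 n, (idealCount K k : ℝ)) / (n : ℝ)) atTop
      (𝓝 (dedekindZeta_residue K)) := by
  refine ((Ideal.tendsto_norm_le_div_atTop₀ K).comp tendsto_natCast_atTop_atTop).congr fun n ↦ ?_
  simp only [Function.comp_apply, Nat.cast_le, ← Nat.cast_sum, idealCount]
  congr
  rw [← add_left_inj 1, ← Ideal.card_norm_le_eq_card_norm_le_add_one,
    show Finset.Icc 1 n = Finset.Ioc 0 n from Finset.Icc_succ_left_eq_Ioc _ _,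
    show 1 = Nat.card {I : Ideal (𝓞 K) // Ideal.absNorm I = 0} by simp [Ideal.absNorm_eq_zero_iff],
    Finset.sum_Ioc_add_eq_sum_Icc (n.zero_le),
    ← Finset.card_preimage_eq_sum_card_image_eq (fun k _ ↦ Ideal.finite_setOfPred_absNorm_eq k)]
  simp [Set.coe_eq_subtype]

theorem zb_idealCount_one : idealCount K 1 = 1 := by
  rw [idealCount]
  have h : {I : Ideal (𝓞 K) // Ideal.absNorm I = 1} = {I : Ideal (𝓞 K) // I = ⊤} := by
    simp only [Ideal.absNorm_eq_one_iff]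
  rw [h]
  simp

/-- The `L`-series of `idealCount` converges for real `s > 1`. -/
theorem zb_lseriesSummable {s : ℝ} (hs : 1 < s) :
    LSeriesSummable (fun n => ((idealCount K n : ℝ) : ℂ)) (s : ℂ) := by
  refine LSeriesSummable_of_sum_norm_bigO_and_nonneg (f := fun n => (idealCount K n : ℝ)) ?_
    (fun n => Nat.cast_nonneg _) zero_le_one (by simpa using hs)
  exact Asymptotics.isBigO_atTop_natCast_rpow_of_tendsto_div_rpow (by simpa using zb_tendsto_sum_div K)

/-- The terms of the `L`-series, as real numbers. -/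
theorem zb_term_eq {s : ℝ} (hs : 1 < s) (n : ℕ) :
    LSeries.term (fun n => ((idealCount K n : ℝ) : ℂ)) (s : ℂ) n =
      (((idealCount K n : ℝ) * (n : ℝ) ^ (-s) : ℝ) : ℂ) := by
  rcases Nat.eq_zero_or_pos n with rfl | hn
  · rw [LSeries.term_zero, Nat.cast_zero, Real.zero_rpow (by linarith), mul_zero, Complex.ofReal_zero]
  · rw [LSeries.term_of_ne_zero hn.ne', Complex.ofReal_mul, Real.rpow_neg (Nat.cast_nonneg n),
      Complex.ofReal_inv, Complex.ofReal_cpow (Nat.cast_nonneg n), div_eq_mul_inv,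
      Complex.ofReal_natCast, Complex.ofReal_natCast]

theorem summable_idealCount_rpow {s : ℝ} (hs : 1 < s) :
    Summable (fun n : ℕ => (idealCount K n : ℝ) * (n : ℝ) ^ (-s)) := by
  have h := zb_lseriesSummable K hs
  rw [LSeriesSummable] at h
  have h2 : Summable (fun n : ℕ => (((idealCount K n : ℝ) * (n : ℝ) ^ (-s) : ℝ) : ℂ)) :=
    h.congr (fun n => (zb_term_eq K hs n))
  exact Complex.summable_ofReal.mp h2

/-- The real zeta sum agrees with Mathlib's Dedekind zeta function. -/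
theorem zb_dedekindZeta_eq {s : ℝ} (hs : 1 < s) :
    dedekindZeta K (s : ℂ) = ((∑' n : ℕ, (idealCount K n : ℝ) * (n : ℝ) ^ (-s) : ℝ) : ℂ) := by
  rw [Complex.ofReal_tsum]
  show LSeries (fun n => ((Nat.card {I : Ideal (𝓞 K) // Ideal.absNorm I = n} : ℕ) : ℂ)) (s : ℂ) = _
  rw [LSeries]
  refine tsum_congr fun n => ?_
  rw [← zb_term_eq K hs n]
  simp [idealCount]

/-- Real form of the analytic class number formula. -/
theorem zb_tendsto_real :
    Tendsto (fun s : ℝ => (s - 1) * ∑' n : ℕ, (idealCount K n : ℝ) * (n : ℝ) ^ (-s)) (𝓝[>] 1)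
      (𝓝 (dedekindZeta_residue K)) := by
  have h := tendsto_sub_one_mul_dedekindZeta_nhdsGT K
  have h2 := (Complex.continuous_re.tendsto _).comp h
  rw [Complex.ofReal_re] at h2
  refine h2.congr' ?_
  filter_upwards [self_mem_nhdsWithin] with s hs
  simp only [Function.comp_apply]
  rw [zb_dedekindZeta_eq K hs, ← Complex.ofReal_one, ← Complex.ofReal_sub, ← Complex.ofReal_mul,
    Complex.ofReal_re]

theorem zb_term_nonneg (s : ℝ) (n : ℕ) : 0 ≤ (idealCount K n : ℝ) * (n : ℝ) ^ (-s) :=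
  mul_nonneg (Nat.cast_nonneg _) (Real.rpow_nonneg (Nat.cast_nonneg _) _)

theorem zb_one_le_tsum {s : ℝ} (hs : 1 < s) :
    1 ≤ ∑' n : ℕ, (idealCount K n : ℝ) * (n : ℝ) ^ (-s) := by
  have h := (summable_idealCount_rpow K hs).le_tsum 1 (fun j _ => zb_term_nonneg K s j)
  simpa [zb_idealCount_one] using h

theorem zb_tsum_anti {s t : ℝ} (hs : 1 < s) (hst : s ≤ t) :
    ∑' n : ℕ, (idealCount K n : ℝ) * (n : ℝ) ^ (-t) ≤
      ∑' n : ℕ, (idealCount K n : ℝ) * (n : ℝ) ^ (-s) := by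
  refine Summable.tsum_le_tsum (fun n => ?_) (summable_idealCount_rpow K (lt_of_lt_of_le hs hst))
    (summable_idealCount_rpow K hs)
  rcases Nat.eq_zero_or_pos n with rfl | hn
  · rw [Nat.cast_zero, Real.zero_rpow (by linarith), Real.zero_rpow (by linarith)]
  · refine mul_le_mul_of_nonneg_left ?_ (Nat.cast_nonneg _)
    exact Real.rpow_le_rpow_of_exponent_le (by exact_mod_cast hn) (by linarith)

theorem exists_zeta_bounds : ∃ c₁ c₂ : ℝ, 0 < c₁ ∧ ∀ s : ℝ, 1 < s → s ≤ 2 →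
    c₁ ≤ (s - 1) * ∑' n : ℕ, (idealCount K n : ℝ) * (n : ℝ) ^ (-s) ∧
    (s - 1) * ∑' n : ℕ, (idealCount K n : ℝ) * (n : ℝ) ^ (-s) ≤ c₂ := by
  obtain ⟨Z, hZ⟩ : ∃ Z : ℝ → ℝ, Z = fun s => ∑' n : ℕ, (idealCount K n : ℝ) * (n : ℝ) ^ (-s) :=
    ⟨_, rfl⟩
  obtain ⟨ρ, hρ⟩ : ∃ ρ : ℝ, ρ = dedekindZeta_residue K := ⟨_, rfl⟩
  have hρpos : 0 < ρ := hρ ▸ dedekindZeta_residue_pos K
  have h : Tendsto (fun s : ℝ => (s - 1) * Z s) (𝓝[>] 1) (𝓝 ρ) := by
    rw [hZ, hρ]
    exact zb_tendsto_real K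
  have hev : ∀ᶠ s in 𝓝[>] (1 : ℝ), (s - 1) * Z s ∈ Set.Ioo (ρ / 2) (2 * ρ) :=
    h.eventually (Ioo_mem_nhds (by linarith) (by linarith))
  obtain ⟨u, hu, hsub⟩ := mem_nhdsGT_iff_exists_Ioo_subset.mp hev
  have hu1 : (1 : ℝ) < u := hu
  obtain ⟨δ, hδ⟩ : ∃ δ : ℝ, δ = min (u - 1) 1 := ⟨_, rfl⟩
  have hδpos : 0 < δ := by rw [hδ]; exact lt_min (by linarith) one_pos
  have hδu : 1 + δ ≤ u := by
    have := min_le_left (u - 1) 1
    rw [← hδ] at this
    linarith
  have hδ1 : δ ≤ 1 := by rw [hδ]; exact min_le_right _ _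
  refine ⟨min (ρ / 2) δ, max (2 * ρ) (Z (1 + δ)), lt_min (by linarith) hδpos, fun s hs1 hs2 => ?_⟩
  have hgoal : min (ρ / 2) δ ≤ (s - 1) * Z s ∧ (s - 1) * Z s ≤ max (2 * ρ) (Z (1 + δ)) := by
    by_cases hsδ : s < 1 + δ
    · have hmem : s ∈ Set.Ioo 1 u := ⟨hs1, lt_of_lt_of_le hsδ hδu⟩
      have h3 := hsub hmem
      exact ⟨(min_le_left _ _).trans h3.1.le, h3.2.le.trans (le_max_left _ _)⟩
    · rw [not_lt] at hsδ
      have hZ1 : 1 ≤ Z s := by rw [hZ]; exact zb_one_le_tsum K hs1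
      have hZ2 : Z s ≤ Z (1 + δ) := by
        rw [hZ]
        exact zb_tsum_anti K (by linarith) hsδ
      constructor
      · calc min (ρ / 2) δ ≤ δ := min_le_right _ _
          _ = δ * 1 := (mul_one δ).symm
          _ ≤ (s - 1) * Z s := mul_le_mul (by linarith) hZ1 zero_le_one (by linarith)
      · calc (s - 1) * Z s ≤ 1 * Z (1 + δ) :=
              mul_le_mul (by linarith) hZ2 (by linarith) zero_le_one
          _ = Z (1 + δ) := one_mul _
          _ ≤ max (2 * ρ) (Z (1 + δ)) := le_max_right _ _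
  have e : Z s = ∑' n : ℕ, (idealCount K n : ℝ) * (n : ℝ) ^ (-s) := by rw [hZ]
  rw [← e]
  exact hgoal

end Fermat.Agent.Frob
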